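import Mathlib

/-!
# Counting good elements in a fibre product
-/

namespace Fermat.Agent.ChebFull

theorem dvd_of_forall_not_dvd {o φ n k : ℕ} (hφ : φ ≠ 0) (hn0 : n ≠ 0) (hk : k ≠ 0)
    (ho : o ∣ φ) (hn : n ^ k ∣ φ) (h : ∀ ℓ ∈ n.primeFactors, ¬ o ∣ φ / ℓ ^ k) : n ∣ o := by
  have ho0 : o ≠ 0 := by
    rintro rfl
    exact hφ (Nat.eq_zero_of_zero_dvd ho)
  rw [← Nat.factorization_le_iff_dvd hn0 ho0]
  intro ℓ
  by_contra hlt
  push Not at hlt
  have hℓ : ℓ ∈ n.primeFactors := by
    rw [← Nat.support_factorization, Finsupp.mem_support_iff]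
    omega
  have hprime : ℓ.Prime := Nat.prime_of_mem_primeFactors hℓ
  have h1 := (Nat.factorization_le_iff_dvd (pow_ne_zero k hn0) hφ).mpr hn ℓ
  rw [Nat.factorization_pow, Finsupp.smul_apply, smul_eq_mul] at h1
  have h2 := (Nat.factorization_le_iff_dvd ho0 hφ).mpr ho
  have hdvd : ℓ ^ k ∣ φ := by
    refine (pow_dvd_pow_of_dvd (Nat.dvd_of_mem_primeFactors hℓ) k).trans hn
  have hne : φ / ℓ ^ k ≠ 0 := by
    rw [Nat.div_ne_zero_iff_of_dvd hdvd]
    exact ⟨hφ, pow_ne_zero k hprime.ne_zero⟩
  refine h ℓ hℓ ((Nat.factorization_le_iff_dvd ho0 hne).mp ?_)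
  intro q
  rw [Nat.factorization_div hdvd, Finsupp.tsub_apply, Nat.factorization_pow,
    Nat.Prime.factorization hprime, Finsupp.smul_apply, smul_eq_mul]
  by_cases hq : q = ℓ
  · subst hq
    rw [Finsupp.single_eq_same, mul_one]
    obtain ⟨v, hv⟩ : ∃ v, n.factorization q = v + 1 := ⟨n.factorization q - 1, by omega⟩
    rw [hv] at h1 hlt
    have h3 : v ≤ k * v := Nat.le_mul_of_pos_left v (Nat.pos_of_ne_zero hk)
    have h4 : k * (v + 1) = k * v + k := by ring
    omega
  · rw [Finsupp.single_eq_of_ne hq, mul_zero, tsub_zero]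
    exact h2 q

open scoped Classical in
/-- in a cyclic group of order divisible by `n ^ k`, almost all elements have order divisible by
`n`. -/
theorem card_bad_le {C : Type*} [CommGroup C] [Fintype C] [IsCyclic C] {n k : ℕ} (hn0 : n ≠ 0)
    (hk : k ≠ 0) (hn : n ^ k ∣ Fintype.card C) :
    ((Finset.univ.filter fun τ : C => ¬ n ∣ orderOf τ).card : ℝ) ≤
      n * (Fintype.card C / 2 ^ k) := by
  have hφ : Fintype.card C ≠ 0 := Fintype.card_ne_zero
  have h1 : (Finset.univ.filter fun τ : C => ¬ n ∣ orderOf τ) ⊆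
      n.primeFactors.biUnion fun ℓ => Finset.univ.filter fun τ : C =>
        τ ^ (Fintype.card C / ℓ ^ k) = 1 := by
    intro τ hτ
    rw [Finset.mem_filter] at hτ
    by_contra hcon
    refine hτ.2 (dvd_of_forall_not_dvd hφ hn0 hk (orderOf_dvd_card) hn fun ℓ hℓ hdvd => ?_)
    refine hcon (Finset.mem_biUnion.mpr ⟨ℓ, hℓ, ?_⟩)
    rw [Finset.mem_filter]
    exact ⟨Finset.mem_univ _, orderOf_dvd_iff_pow_eq_one.mp hdvd⟩
  have h2 := (Finset.card_le_card h1).trans Finset.card_biUnion_le
  have h3 : ∀ ℓ ∈ n.primeFactors, ((Finset.univ.filter fun τ : C =>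
      τ ^ (Fintype.card C / ℓ ^ k) = 1).card : ℝ) ≤ Fintype.card C / 2 ^ k := by
    intro ℓ hℓ
    have hprime : ℓ.Prime := Nat.prime_of_mem_primeFactors hℓ
    have hdvd : ℓ ^ k ∣ Fintype.card C :=
      (pow_dvd_pow_of_dvd (Nat.dvd_of_mem_primeFactors hℓ) k).trans hn
    have hpos : 0 < Fintype.card C / ℓ ^ k :=
      Nat.div_pos (Nat.le_of_dvd (Nat.pos_of_ne_zero hφ) hdvd) (pow_pos hprime.pos k)
    have h4 : ((Finset.univ.filter fun τ : C =>
        τ ^ (Fintype.card C / ℓ ^ k) = 1).card : ℝ) ≤ ((Fintype.card C / ℓ ^ k : ℕ) : ℝ) := by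
      exact Nat.cast_le.mpr (IsCyclic.card_pow_eq_one_le hpos)
    refine h4.trans (Nat.cast_div_le.trans ?_)
    rw [Nat.cast_pow]
    refine div_le_div_of_nonneg_left (Nat.cast_nonneg _) (by positivity) ?_
    exact pow_le_pow_left₀ (by norm_num) (by exact_mod_cast hprime.two_le) k
  calc ((Finset.univ.filter fun τ : C => ¬ n ∣ orderOf τ).card : ℝ)
      ≤ ((∑ ℓ ∈ n.primeFactors, (Finset.univ.filter fun τ : C =>
          τ ^ (Fintype.card C / ℓ ^ k) = 1).card : ℕ) : ℝ) := by exact_mod_cast h2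
    _ = ∑ ℓ ∈ n.primeFactors, ((Finset.univ.filter fun τ : C =>
          τ ^ (Fintype.card C / ℓ ^ k) = 1).card : ℝ) := by push_cast; rfl
    _ ≤ ∑ ℓ ∈ n.primeFactors, ((Fintype.card C : ℝ) / 2 ^ k) := Finset.sum_le_sum h3
    _ = n.primeFactors.card * (Fintype.card C / 2 ^ k) := by
      rw [Finset.sum_const, nsmul_eq_mul]
    _ ≤ n * (Fintype.card C / 2 ^ k) := by
      refine mul_le_mul_of_nonneg_right ?_ (by positivity)
      have h5 : n.primeFactors ⊆ Finset.Icc 1 n := by
        intro q hq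
        rw [Finset.mem_Icc]
        exact ⟨(Nat.prime_of_mem_primeFactors hq).pos, Nat.le_of_mem_primeFactors hq⟩
      have h6 := Finset.card_le_card h5
      rw [Nat.card_Icc, Nat.add_sub_cancel] at h6
      exact_mod_cast h6

open scoped Classical in
/-- the cardinality of the preimage -/
theorem card_preimage_mul {Γ G : Type*} [Group Γ] [Fintype Γ] [Group G] [Fintype G] (r : Γ →* G)
    (hr : Function.Surjective r) (B : Finset G) :
    (Finset.univ.filter fun g : Γ => r g ∈ B).card * Fintype.card G =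
      B.card * Fintype.card Γ := by
  have h0 : ∀ x : G, (Finset.univ.filter fun g : Γ => r g = x).card =
      (Finset.univ.filter fun g : Γ => r g = 1).card := fun x =>
    MonoidHom.card_fiber_eq_of_mem_range r (by simpa using hr x) (by simpa using hr 1)
  have h1 : (Finset.univ.filter fun g : Γ => r g ∈ B).card =
      B.card * (Finset.univ.filter fun g : Γ => r g = 1).card := by
    rw [Finset.card_eq_sum_card_fiberwise (f := r) (t := B) (fun g hg => by simpa using hg)]
    rw [Finset.sum_congr rfl (g := fun _ => (Finset.univ.filter fun g : Γ => r g = 1).card)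
      fun x hx => ?_]
    · rw [Finset.sum_const, smul_eq_mul]
    · rw [← h0 x]
      congr 1
      ext g
      simp only [Finset.mem_filter, Finset.mem_univ, true_and]
      constructor
      · exact fun h => h.2
      · exact fun h => ⟨h ▸ hx, h⟩
  have h2 : Fintype.card Γ = Fintype.card G *
      (Finset.univ.filter fun g : Γ => r g = 1).card := by
    rw [← Finset.card_univ (α := Γ),
      Finset.card_eq_sum_card_fiberwise (f := r) (t := Finset.univ)
        (fun g _ => Finset.mem_coe.mpr (Finset.mem_univ _))]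
    rw [Finset.sum_congr rfl (g := fun _ => (Finset.univ.filter fun g : Γ => r g = 1).card)
      fun x _ => h0 x]
    rw [Finset.sum_const, smul_eq_mul, Finset.card_univ]
  rw [h1, h2]
  ring

open scoped Classical in
/-- the number of good elements -/
theorem card_good_ge {Γ G C : Type*} [Group Γ] [Fintype Γ] [Group G] [Fintype G]
    [CommGroup C] [Fintype C] [IsCyclic C] (r : Γ →* G) (c : Γ →* C)
    (hr : Function.Surjective r) (hinj : ∀ g, r g = 1 → c g = 1 → g = 1)
    (hcard : Fintype.card C ≤ Fintype.card Γ) {k : ℕ} (hk : k ≠ 0)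
    (hn : (Fintype.card G) ^ k ∣ Fintype.card C) (B : Finset G) :
    ((B.card : ℝ) / Fintype.card G - (Fintype.card G : ℝ) ^ 2 / 2 ^ k) * Fintype.card Γ ≤
      ((Finset.univ.filter fun g : Γ => r g ∈ B ∧ Fintype.card G ∣ orderOf (c g)).card : ℝ) := by
  set n := Fintype.card G with hn'
  have hn0 : n ≠ 0 := Fintype.card_ne_zero
  have hn1 : (0 : ℝ) < n := by exact_mod_cast Nat.pos_of_ne_zero hn0
  have h1 : ((Finset.univ.filter fun g : Γ => r g ∈ B).card : ℝ) =
      B.card / n * Fintype.card Γ := by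
    have := card_preimage_mul r hr B
    have h2 : ((Finset.univ.filter fun g : Γ => r g ∈ B).card : ℝ) * n =
      B.card * Fintype.card Γ := by exact_mod_cast this
    field_simp
    linarith
  have hbad : ((Finset.univ.filter fun g : Γ => ¬ n ∣ orderOf (c g)).card : ℝ) ≤
      n * (n * (Fintype.card C / 2 ^ k)) := by
    have h3 : (Finset.univ.filter fun g : Γ => ¬ n ∣ orderOf (c g)).card ≤
        (Finset.univ ×ˢ (Finset.univ.filter fun τ : C => ¬ n ∣ orderOf τ) : Finset (G × C)).card := by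
      refine Finset.card_le_card_of_injOn (fun g => (r g, c g)) (fun g hg => ?_) ?_
      · rw [Finset.mem_coe, Finset.mem_filter] at hg
        rw [Finset.mem_coe, Finset.mem_product, Finset.mem_filter]
        exact ⟨Finset.mem_univ _, Finset.mem_univ _, hg.2⟩
      · intro g _ g' _ h
        rw [Prod.mk.injEq] at h
        have := hinj (g⁻¹ * g') (by rw [map_mul, map_inv, h.1, inv_mul_cancel])
          (by rw [map_mul, map_inv, h.2, inv_mul_cancel])
        exact inv_mul_eq_one.mp this
    rw [Finset.card_product, Finset.card_univ] at h3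
    have h4 := card_bad_le (C := C) hn0 hk hn
    calc ((Finset.univ.filter fun g : Γ => ¬ n ∣ orderOf (c g)).card : ℝ)
        ≤ ((n * (Finset.univ.filter fun τ : C => ¬ n ∣ orderOf τ).card : ℕ) : ℝ) := by
          exact_mod_cast h3
      _ = n * ((Finset.univ.filter fun τ : C => ¬ n ∣ orderOf τ).card : ℝ) := by push_cast; rfl
      _ ≤ n * (n * (Fintype.card C / 2 ^ k)) := mul_le_mul_of_nonneg_left h4 hn1.le
  have hsplit : (Finset.univ.filter fun g : Γ => r g ∈ B).card ≤
      (Finset.univ.filter fun g : Γ => r g ∈ B ∧ n ∣ orderOf (c g)).card +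
        (Finset.univ.filter fun g : Γ => ¬ n ∣ orderOf (c g)).card := by
    rw [← Finset.card_filter_add_card_filter_not (s := Finset.univ.filter fun g : Γ => r g ∈ B)
      (fun g => n ∣ orderOf (c g))]
    rw [Finset.filter_filter, Finset.filter_filter]
    refine Nat.add_le_add_left (Finset.card_le_card fun g hg => ?_) _
    rw [Finset.mem_filter] at hg ⊢
    exact ⟨hg.1, hg.2.2⟩
  have hsplit' : ((Finset.univ.filter fun g : Γ => r g ∈ B).card : ℝ) ≤
      ((Finset.univ.filter fun g : Γ => r g ∈ B ∧ n ∣ orderOf (c g)).card : ℝ) +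
        ((Finset.univ.filter fun g : Γ => ¬ n ∣ orderOf (c g)).card : ℝ) := by
    exact_mod_cast hsplit
  have hC : (n : ℝ) * (n * (Fintype.card C / 2 ^ k)) ≤ n ^ 2 / 2 ^ k * Fintype.card Γ := by
    have h5 : (Fintype.card C : ℝ) ≤ Fintype.card Γ := by exact_mod_cast hcard
    have h6 : (n : ℝ) * (n * (Fintype.card C / 2 ^ k)) = n ^ 2 / 2 ^ k * Fintype.card C := by ring
    rw [h6]
    exact mul_le_mul_of_nonneg_left h5 (by positivity)
  rw [sub_mul]
  linarith

end Fermat.Agent.ChebFull
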