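import Mathlib
import Fermat.Agent.IdealL.LogL
import Fermat.Agent.IdealL.DirChar
import Fermat.Agent.Cheb.Density

/-!
# Sums over primes of a number field and over rational primes
-/

open NumberField Ideal Filter Topology

open scoped Classical nonZeroDivisors

namespace Fermat.Agent.ChebFull

open IdealL

/-- complex valued functions bounded on `(1,2]` -/
def Bdd (f : ℝ → ℂ) : Prop := ∃ C : ℝ, ∀ s ∈ Set.Ioc (1 : ℝ) 2, ‖f s‖ ≤ C

theorem Bdd.congr {f g : ℝ → ℂ} (hf : Bdd f) (h : ∀ s ∈ Set.Ioc (1 : ℝ) 2, g s = f s) :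
    Bdd g := by
  obtain ⟨C, hC⟩ := hf
  exact ⟨C, fun s hs => by rw [h s hs]; exact hC s hs⟩

theorem Bdd.add {f g : ℝ → ℂ} (hf : Bdd f) (hg : Bdd g) : Bdd (fun s => f s + g s) := by
  obtain ⟨C, hC⟩ := hf
  obtain ⟨C', hC'⟩ := hg
  exact ⟨C + C', fun s hs => (norm_add_le _ _).trans (add_le_add (hC s hs) (hC' s hs))⟩

theorem Bdd.const_mul {f : ℝ → ℂ} (c : ℂ) (hf : Bdd f) : Bdd (fun s => c * f s) := by
  obtain ⟨C, hC⟩ := hf
  exact ⟨‖c‖ * C, fun s hs => by
    rw [norm_mul]; exact mul_le_mul_of_nonneg_left (hC s hs) (norm_nonneg c)⟩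

theorem Bdd.neg {f : ℝ → ℂ} (hf : Bdd f) : Bdd (fun s => -f s) :=
  (hf.const_mul (-1)).congr fun s _ => by ring

theorem Bdd.sub {f g : ℝ → ℂ} (hf : Bdd f) (hg : Bdd g) : Bdd (fun s => f s - g s) :=
  (hf.add hg.neg).congr fun s _ => by ring

theorem Bdd.sum {ι : Type*} (t : Finset ι) {f : ι → ℝ → ℂ} (hf : ∀ i ∈ t, Bdd (f i)) :
    Bdd (fun s => ∑ i ∈ t, f i s) := by
  induction t using Finset.induction_on with
  | empty => exact ⟨0, fun s _ => by simp⟩
  | insert a t ha ih =>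
    have h1 := (hf a (Finset.mem_insert_self a t)).add
      (ih fun i hi => hf i (Finset.mem_insert_of_mem hi))
    exact h1.congr fun s _ => by rw [Finset.sum_insert ha]

theorem Bdd.ofReal {f : ℝ → ℝ} (hf : Cheb.BddNear f) : Bdd (fun s => (f s : ℂ)) := by
  obtain ⟨C, hC⟩ := hf
  exact ⟨C, fun s hs => by
    rw [Complex.norm_real]; exact hC s hs.1 hs.2⟩

theorem Bdd.re {f : ℝ → ℂ} (hf : Bdd f) : Cheb.BddNear (fun s => (f s).re) := by
  obtain ⟨C, hC⟩ := hf
  exact ⟨C, fun s h1 h2 => (Complex.abs_re_le_norm _).trans (hC s ⟨h1, h2⟩)⟩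

/-- Dirichlet series over the rational primes -/
noncomputable def Esum (u : Nat.Primes → ℂ) (s : ℝ) : ℂ :=
  ∑' p : Nat.Primes, u p * ((((p : ℕ) : ℝ) ^ (-s) : ℝ) : ℂ)

/-- summability predicate -/
def ESummable (u : Nat.Primes → ℂ) : Prop :=
  ∀ s : ℝ, 1 < s → Summable fun p : Nat.Primes => u p * ((((p : ℕ) : ℝ) ^ (-s) : ℝ) : ℂ)

theorem ESummable.of_le {u : Nat.Primes → ℂ} {v : Nat.Primes → ℝ}
    (hv : ∀ s : ℝ, 1 < s → Summable fun p : Nat.Primes => v p * ((p : ℕ) : ℝ) ^ (-s))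
    (h : ∀ p, ‖u p‖ ≤ v p) : ESummable u := by
  intro s hs
  refine Summable.of_norm_bounded (hv s hs) fun p => ?_
  have h0 : 0 ≤ ((p : ℕ) : ℝ) ^ (-s) := Real.rpow_nonneg (Nat.cast_nonneg _) _
  rw [norm_mul, Complex.norm_real, Real.norm_eq_abs, abs_of_nonneg h0]
  exact mul_le_mul_of_nonneg_right (h p) h0

theorem Esum_add {u v : Nat.Primes → ℂ} (hu : ESummable u) (hv : ESummable v) {s : ℝ}
    (hs : 1 < s) : Esum (fun p => u p + v p) s = Esum u s + Esum v s := by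
  unfold Esum
  rw [← (hu s hs).tsum_add (hv s hs)]
  exact tsum_congr fun p => by ring

theorem Esum_sub {u v : Nat.Primes → ℂ} (hu : ESummable u) (hv : ESummable v) {s : ℝ}
    (hs : 1 < s) : Esum (fun p => u p - v p) s = Esum u s - Esum v s := by
  unfold Esum
  rw [← (hu s hs).tsum_sub (hv s hs)]
  exact tsum_congr fun p => by ring

theorem Esum_const_mul (c : ℂ) (u : Nat.Primes → ℂ) (s : ℝ) :
    Esum (fun p => c * u p) s = c * Esum u s := by
  unfold Esum
  rw [← tsum_mul_left]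
  exact tsum_congr fun p => by ring

theorem ESummable.const_mul {u : Nat.Primes → ℂ} (c : ℂ) (hu : ESummable u) :
    ESummable (fun p => c * u p) := fun s hs =>
  ((hu s hs).mul_left c).congr fun p => by ring

theorem Esum_sum {ι : Type*} (t : Finset ι) {u : ι → Nat.Primes → ℂ}
    (hu : ∀ i ∈ t, ESummable (u i)) {s : ℝ} (hs : 1 < s) :
    Esum (fun p => ∑ i ∈ t, u i p) s = ∑ i ∈ t, Esum (u i) s := by
  unfold Esum
  rw [← Summable.tsum_finsetSum fun i hi => hu i hi s hs]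
  exact tsum_congr fun p => by rw [Finset.sum_mul]

/-- changing finitely many coefficients changes the sum by a bounded function. -/
theorem bdd_Esum_of_finite {u : Nat.Primes → ℂ} (F : Finset Nat.Primes)
    (hF : ∀ p, p ∉ F → u p = 0) : Bdd (Esum u) := by
  refine ⟨∑ p ∈ F, ‖u p‖, fun s hs => ?_⟩
  unfold Esum
  rw [tsum_eq_sum (s := F) (fun p hp => by rw [hF p hp, zero_mul])]
  refine (norm_sum_le _ _).trans (Finset.sum_le_sum fun p _ => ?_)
  have hp : (1 : ℝ) ≤ ((p : ℕ) : ℝ) := by exact_mod_cast p.2.one_lt.le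
  have h0 : 0 ≤ ((p : ℕ) : ℝ) ^ (-s) := Real.rpow_nonneg (Nat.cast_nonneg _) _
  rw [norm_mul, Complex.norm_real, Real.norm_eq_abs, abs_of_nonneg h0]
  exact mul_le_of_le_one_right (norm_nonneg _)
    (Real.rpow_le_one_of_one_le_of_nonpos hp (by linarith [hs.1]))

theorem finite_dvd {D : ℕ} (hD : D ≠ 0) : {p : Nat.Primes | (p : ℕ) ∣ D}.Finite := by
  have h1 : (Nat.divisors D : Set ℕ).Finite := Finset.finite_toSet _
  refine Set.Finite.of_finite_image (f := fun p : Nat.Primes => (p : ℕ)) (h1.subset ?_)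
    Nat.Primes.coe_nat_injective.injOn
  rintro _ ⟨p, hp, rfl⟩
  rw [Finset.mem_coe, Nat.mem_divisors]
  exact ⟨hp, hD⟩

theorem bdd_Esum_sub {u v : Nat.Primes → ℂ} (hu : ESummable u) (hv : ESummable v) {D : ℕ}
    (hD : D ≠ 0) (h : ∀ p : Nat.Primes, ¬ (p : ℕ) ∣ D → u p = v p) :
    Bdd (fun s => Esum u s - Esum v s) := by
  have h1 : Bdd (Esum fun p => u p - v p) :=
    bdd_Esum_of_finite (finite_dvd hD).toFinset fun p hp => by
      simp only [Set.Finite.mem_toFinset, Set.mem_ofPred_eq] at hp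
      rw [h p hp, sub_self]
  exact h1.congr fun s hs => (Esum_sub hu hv hs.1).symm

variable {K : Type*} [Field K] [NumberField K]

/-- the number of ideals of prime norm `p` -/
noncomputable abbrev ac (K : Type*) [Field K] [NumberField K] (p : Nat.Primes) : ℂ :=
  ((Cheb.idealCount (𝓞 K) p : ℝ) : ℂ)

theorem summable_ac : ESummable (ac K) :=
  ESummable.of_le (v := fun p => (Cheb.idealCount (𝓞 K) p : ℝ))
    (fun s hs => Cheb.summable_idealCount_primes K hs)
    fun p => by rw [Complex.norm_real, Real.norm_eq_abs, abs_of_nonneg (Nat.cast_nonneg _)]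

theorem summable_mul_ac {f : Nat.Primes → ℂ} (hf : ∀ p, ‖f p‖ ≤ 1) :
    ESummable (fun p => f p * ac K p) :=
  ESummable.of_le (v := fun p => (Cheb.idealCount (𝓞 K) p : ℝ))
    (fun s hs => Cheb.summable_idealCount_primes K hs)
    fun p => by
      rw [norm_mul, Complex.norm_real, Real.norm_eq_abs, abs_of_nonneg (Nat.cast_nonneg _)]
      exact mul_le_of_le_one_left (Nat.cast_nonneg _) (hf p)

/-- functions of the norm -/
noncomputable def nchar (K : Type*) [Field K] [NumberField K] (f : ℕ → ℂ) (I : (Ideal (𝓞 K))⁰) : ℂ :=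
  f (absNorm (I : Ideal (𝓞 K)))

theorem nchar_apply (f : ℕ → ℂ) (I : (Ideal (𝓞 K))⁰) :
    nchar K f I = f (absNorm (I : Ideal (𝓞 K))) := rfl

theorem norm_nchar {f : ℕ → ℂ} (hf : ∀ n, ‖f n‖ ≤ 1) (I : (Ideal (𝓞 K))⁰) : ‖nchar K f I‖ ≤ 1 :=
  hf _

/-- the primes of degree one -/
abbrev D1 (K : Type*) [Field K] [NumberField K] : Set (PI K) :=
  {q | (absNorm (q.1 : Ideal (𝓞 K))).Prime}

theorem tsum_D1 (f : ℕ → ℂ) (hf : ∀ n, ‖f n‖ ≤ 1) {s : ℝ} (hs : 1 < s) :
    ∑' q : D1 K, nchar K f q.1.1 * (iterm K s q.1.1 : ℝ) =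
      Esum (fun p => f p * ac K p) s := by
  have hsum : Summable fun q : D1 K => nchar K f q.1.1 * ((iterm K s q.1.1 : ℝ) : ℂ) :=
    (summable_Psum (norm_nchar hf) hs).comp_injective Subtype.val_injective
  let φ : D1 K → Nat.Primes := fun q => ⟨absNorm (q.1.1 : Ideal (𝓞 K)), q.2⟩
  have h1 := hsum.hasSum.tsum_fiberwise φ
  rw [← h1.tsum_eq, Esum]
  refine tsum_congr fun p => ?_
  -- the fibre
  have hfib : ∀ q : ↑(φ ⁻¹' {p}), nchar K f q.1.1.1 *
      ((iterm K s q.1.1.1 : ℝ) : ℂ) = f p * ((((p : ℕ) : ℝ) ^ (-s) : ℝ) : ℂ) := by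
    intro q
    have h2 : φ q.1 = p := q.2
    have h3 : absNorm (q.1.1.1 : Ideal (𝓞 K)) = (p : ℕ) := congrArg Subtype.val h2
    rw [iterm, nchar_apply, h3]
  rw [tsum_congr hfib]
  let e : ↑(φ ⁻¹' {p}) ≃ {I : Ideal (𝓞 K) // absNorm I = (p : ℕ)} :=
    { toFun := fun q => ⟨q.1.1.1, congrArg Subtype.val (show φ q.1 = p from q.2)⟩
      invFun := fun I => ⟨⟨⟨⟨I.1, by
          rw [← absNorm_ne_zero_iff_mem_nonZeroDivisors, I.2]
          exact p.2.ne_zero⟩, by
          apply Ideal.isPrime_of_irreducible_absNorm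
          change Irreducible (absNorm I.1)
          rw [I.2]
          exact p.2⟩, by
          change (absNorm I.1).Prime
          rw [I.2]; exact p.2⟩, Subtype.ext I.2⟩
      left_inv := fun q => rfl
      right_inv := fun I => rfl }
  have hfin : Finite {I : Ideal (𝓞 K) // absNorm I = (p : ℕ)} :=
    (finite_setOfPred_absNorm_eq (p : ℕ)).to_subtype
  have := Fintype.ofFinite {I : Ideal (𝓞 K) // absNorm I = (p : ℕ)}
  have := Fintype.ofEquiv _ e.symm
  rw [tsum_fintype, Finset.sum_const, Finset.card_univ, Fintype.card_congr e, nsmul_eq_mul]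
  unfold ac
  rw [Cheb.idealCount, Nat.card_eq_fintype_card]
  push_cast
  ring

theorem tsum_split (f : ℕ → ℂ) (hf : ∀ n, ‖f n‖ ≤ 1) {s : ℝ} (hs : 1 < s) :
    Psum (nchar K f) s =
      Esum (fun p => f p * ac K p) s + ∑' q : ↑(D1 K)ᶜ,
        nchar K f q.1.1 * ((iterm K s q.1.1 : ℝ) : ℂ) := by
  have h1 := summable_Psum (norm_nchar (K := K) hf) hs
  rw [← tsum_D1 f hf hs, Psum, ← h1.tsum_subtype_add_tsum_subtype_compl (D1 K)]

variable (K) in
/-- The sum over the primes of degree at least two is bounded. -/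
theorem exists_bound_compl : ∃ C : ℝ, ∀ s ∈ Set.Ioc (1 : ℝ) 2,
    ∑' q : ↑(D1 K)ᶜ, iterm K s q.1.1 ≤ C := by
  refine ⟨(∑' p : Nat.Primes, ((p : ℕ) : ℝ) ^ (-2 : ℝ)) * Cheb.tailConst (Module.finrank ℤ (𝓞 K)) +
    ∑' q : PI K, iterm K 2 q.1, fun s hs => ?_⟩
  have hs1 := hs.1
  have h1 := tsum_split (K := K) (fun _ => 1) (fun _ => by simp) hs1
  have hψ : ∀ I : (Ideal (𝓞 K))⁰, ‖nchar K (fun _ => 1) I‖ ≤ 1 := norm_nchar fun _ => by simp
  have h2 := norm_Gsum_sub_Psum_le hψ hs1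
  have h3 := exp_Gsum (K := K) (ψ := nchar K fun _ => 1) rfl
    (fun _ _ => by simp [nchar_apply]) hψ hs1
  have h4 : ∑' I : (Ideal (𝓞 K))⁰, nchar K (fun _ => 1) I * (iterm K s I : ℝ) =
      (Cheb.zetaR K s : ℝ) := by
    simp_rw [nchar_apply, one_mul]
    rw [← Complex.ofReal_tsum, (hasSum_iterm hs1).tsum_eq]
  have h5 : (Gsum (nchar K fun _ => 1) s).re = Real.log (Cheb.zetaR K s) := by
    have h6 : ‖Complex.exp (Gsum (nchar K fun _ => 1) s)‖ = Cheb.zetaR K s := by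
      rw [h3, h4, Complex.norm_real, Real.norm_eq_abs, abs_of_nonneg (zetaR_nonneg hs1)]
    rw [Complex.norm_exp] at h6
    rw [← h6, Real.log_exp]
  have h7 := Cheb.log_zetaR_le (K := K) hs1
  have h8 : (Esum (fun p => (1 : ℂ) * ac K p) s).re = ∑' p : Nat.Primes, Cheb.zterm K s p := by
    unfold Esum
    have : ∀ p : Nat.Primes, (1 : ℂ) * ac K p * ((((p : ℕ) : ℝ) ^ (-s) : ℝ) : ℂ) =
        ((Cheb.zterm K s p : ℝ) : ℂ) := by
      intro p
      unfold Cheb.zterm ac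
      push_cast
      ring
    rw [tsum_congr this, ← Complex.ofReal_tsum, Complex.ofReal_re]
  have h9 : (∑' q : ↑(D1 K)ᶜ, nchar K (fun _ => 1) q.1.1 * ((iterm K s q.1.1 : ℝ) : ℂ)).re =
      ∑' q : ↑(D1 K)ᶜ, iterm K s q.1.1 := by
    simp_rw [nchar_apply, one_mul]
    rw [← Complex.ofReal_tsum, Complex.ofReal_re]
  have h10 := (Complex.abs_re_le_norm (Gsum (nchar K fun _ => 1) s -
    Psum (nchar K fun _ => 1) s)).trans h2
  have h11 := (abs_le.mp h10).1
  rw [Complex.sub_re, h5, h1, Complex.add_re, h8, h9] at h11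
  linarith

/-- The sum over primes of `K` agrees with the sum over rational primes up to a bounded
function. -/
theorem bdd_Psum_sub_Esum (f : ℕ → ℂ) (hf : ∀ n, ‖f n‖ ≤ 1) :
    Bdd (fun s => Psum (nchar K f) s - Esum (fun p => f p * ac K p) s) := by
  obtain ⟨C, hC⟩ := exists_bound_compl K
  refine ⟨C, fun s hs => ?_⟩
  have h1 := tsum_split (K := K) f hf hs.1
  have h2 : Psum (nchar K f) s - Esum (fun p => f p * ac K p) s =
      ∑' q : ↑(D1 K)ᶜ, nchar K f q.1.1 * ((iterm K s q.1.1 : ℝ) : ℂ) := by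
    rw [h1, add_sub_cancel_left]
  change ‖Psum (nchar K f) s - Esum (fun p => f p * ac K p) s‖ ≤ C
  rw [h2]
  refine le_trans ?_ (hC s hs)
  refine tsum_of_norm_bounded (((summable_primes hs.1).comp_injective
    Subtype.val_injective).hasSum) fun q => ?_
  exact norm_term_le (norm_nchar hf) s q.1.1

end Fermat.Agent.ChebFull
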