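import Mathlib
import Fermat.Agent.ChebFull.PrimeSum

/-!
# Chebotarev's theorem for elements on which a cyclotomic character is injective
-/

set_option linter.unusedSectionVars false
set_option linter.unusedVariables false

open NumberField Ideal Filter Topology Pointwise

open scoped Classical nonZeroDivisors

namespace Fermat.Agent.ChebFull

open IdealL Cheb

section

variable {M : Type*} [Field M] [NumberField M] [IsGalois ℚ M]

/-- weights of group elements at a prime -/
noncomputable def wt (g : Gal(M/ℚ)) (p : Nat.Primes) : ℕ :=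
  ∑ P ∈ primesAbove M p,
    if frobOf P = g then Nat.card (MulAction.stabilizer Gal(M/ℚ) P) else 0

variable (D : ℕ)

/-- the weight away from `D` -/
noncomputable def W (g : Gal(M/ℚ)) (p : Nat.Primes) : ℂ :=
  if (p : ℕ) ∣ D then 0 else ((wt g p : ℝ) : ℂ)

variable {D} (hgood : ∀ p : ℕ, p.Prime → ¬ p ∣ D → ∀ P : Ideal (𝓞 M), P.IsPrime →
  (p : 𝓞 M) ∈ P → P.inertia Gal(M/ℚ) = ⊥)

include hgood in
theorem card_mul_ac (H : Subgroup Gal(M/ℚ)) {p : Nat.Primes} (hp : ¬ (p : ℕ) ∣ D) :
    Nat.card H * idealCount (𝓞 (FixedPoints.intermediateField H : IntermediateField ℚ M)) p =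
      ∑ h : Gal(M/ℚ) with h ∈ H, wt h p := by
  haveI := Fact.mk p.2
  have h1 := card_mul_card_ideals (K := (FixedPoints.intermediateField H : IntermediateField ℚ M))
    H p (primesAbove M p) (mem_primesAbove M p)
    (fun P hP => hgood p p.2 hp P ((mem_primesAbove M p P).mp hP).1
      ((mem_primesAbove M p P).mp hP).2)
    frobOf (fun P hP => isArithFrobAt_frobOf M hP)
  unfold idealCount
  rw [h1]
  unfold wt
  rw [Finset.sum_comm]
  refine Finset.sum_congr rfl fun P hP => ?_
  rw [Finset.sum_ite_eq]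
  simp

include hgood in
theorem card_mul_ac' (H : Subgroup Gal(M/ℚ)) {p : Nat.Primes} (hp : ¬ (p : ℕ) ∣ D) :
    (Nat.card H : ℂ) * ac (FixedPoints.intermediateField H : IntermediateField ℚ M) p =
      ∑ h : Gal(M/ℚ) with h ∈ H, W D h p := by
  have h1 := card_mul_ac hgood H hp
  have h2 : (((Nat.card H *
      idealCount (𝓞 (FixedPoints.intermediateField H : IntermediateField ℚ M)) p : ℕ) : ℝ) : ℂ) =
      (((∑ h : Gal(M/ℚ) with h ∈ H, wt h p : ℕ) : ℝ) : ℂ) := by rw [h1]
  push_cast at h2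
  unfold ac
  push_cast
  rw [h2]
  refine Finset.sum_congr rfl fun h _ => ?_
  rw [W, if_neg hp]
  push_cast
  rfl

include hgood in
theorem eSummable_W (g : Gal(M/ℚ)) : ESummable (W D g) := by
  refine ESummable.of_le (v := fun p => (Nat.card (Subgroup.zpowers g) : ℝ) *
    (idealCount (𝓞 (FixedPoints.intermediateField (Subgroup.zpowers g) :
      IntermediateField ℚ M)) p : ℝ)) (fun s hs => ?_) fun p => ?_
  · exact ((summable_idealCount_primes (FixedPoints.intermediateField (Subgroup.zpowers g) :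
      IntermediateField ℚ M) hs).mul_left (Nat.card (Subgroup.zpowers g) : ℝ)).congr
      fun p => by rw [mul_assoc]; rfl
  · unfold W
    split_ifs with hp
    · rw [norm_zero]; positivity
    · rw [Complex.norm_real, Real.norm_eq_abs, abs_of_nonneg (Nat.cast_nonneg _)]
      have h1 := card_mul_ac hgood (Subgroup.zpowers g) hp
      have h2 : wt g p ≤ ∑ h : Gal(M/ℚ) with h ∈ Subgroup.zpowers g, wt h p :=
        Finset.single_le_sum (f := fun h => wt h p) (fun _ _ => Nat.zero_le _)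
          (by simp)
      rw [← h1] at h2
      exact_mod_cast h2

/-- the logarithm -/
noncomputable def lg (s : ℝ) : ℂ := ((Real.log (1 / (s - 1)) : ℝ) : ℂ)

theorem not_bdd_lg {c : ℂ} (h : Bdd fun s => c * lg s) : c = 0 := by
  by_contra hc
  have h1 : Bdd fun s => lg s := (h.const_mul c⁻¹).congr fun s _ => by
    rw [← mul_assoc, inv_mul_cancel₀ hc, one_mul]
  have h2 := h1.re
  exact not_bddNear_log (h2.congr fun s _ _ => by rw [lg, Complex.ofReal_re])

theorem bdd_ac_sub_lg (K : Type*) [Field K] [NumberField K] :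
    Bdd fun s => Esum (ac K) s - lg s := by
  obtain ⟨C, hC⟩ := exists_bound_degreeOne K
  have h1 : BddNear fun s => ∑' p : Nat.Primes, (idealCount (𝓞 K) p : ℝ) * ((p : ℕ) : ℝ) ^ (-s) -
      Real.log (1 / (s - 1)) := ⟨C, hC⟩
  refine (Bdd.ofReal h1).congr fun s hs => ?_
  unfold Esum lg ac
  push_cast
  rfl

include hgood in
/-- sums over subgroups -/
theorem bdd_sum_subgroup (hD : D ≠ 0) (H : Subgroup Gal(M/ℚ)) :
    Bdd fun s => ∑ h : Gal(M/ℚ) with h ∈ H, Esum (W D h) s - (Nat.card H : ℂ) * lg s := by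
  set K := (FixedPoints.intermediateField H : IntermediateField ℚ M)
  have h1 := (bdd_ac_sub_lg K).const_mul (Nat.card H : ℂ)
  have h2 : Bdd fun s => Esum (fun p => ∑ h : Gal(M/ℚ) with h ∈ H, W D h p) s -
      Esum (fun p => (Nat.card H : ℂ) * ac K p) s := by
    refine bdd_Esum_sub (fun s hs => ?_) (summable_ac.const_mul _) hD
      fun p hp => (card_mul_ac' hgood H hp).symm
    have := summable_sum (s := Finset.univ.filter fun h : Gal(M/ℚ) => h ∈ H)
      fun h _ => eSummable_W hgood h s hs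
    exact this.congr fun p => by rw [Finset.sum_mul]
  refine (h1.add h2).congr fun s hs => ?_
  rw [Esum_sum _ (fun h _ => eSummable_W hgood h) hs.1, Esum_const_mul]
  ring

end

section Cyc

variable {M : Type*} [Field M] [NumberField M] [IsGalois ℚ M] {m : ℕ} [NeZero m] {ζ : M}
  (hζ : IsPrimitiveRoot ζ m)

/-- the cyclotomic character -/
noncomputable def cyc : Gal(M/ℚ) →* (ZMod m)ˣ := hζ.autToPow ℚ

theorem cyc_frob {p : Nat.Primes} (hp : ¬ (p : ℕ) ∣ m) {P : Ideal (𝓞 M)}
    (hP : P ∈ primesAbove M p) {F : Gal(M/ℚ)} (hF : IsArithFrobAt ℤ F P) :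
    ((cyc hζ F : (ZMod m)ˣ) : ZMod m) = ((p : ℕ) : ZMod m) := by
  haveI := Fact.mk p.2
  have hP' := (mem_primesAbove M p P).mp hP
  haveI := hP'.1
  have hcard : Nat.card (ℤ ⧸ P.under ℤ) = (p : ℕ) := card_quot_under_int hP'.2
  have h1 : (hζ.toInteger) ^ m = 1 := by
    apply RingOfIntegers.coe_injective
    change ζ ^ m = 1
    exact hζ.pow_eq_one
  have hmP : (m : 𝓞 M) ∉ P := by
    intro h
    have h2 : ((m : ℤ) : ℤ) ∈ P.under ℤ := by
      rw [Ideal.mem_comap]
      simpa using h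
    rw [under_int hP'.2, Ideal.mem_span_singleton] at h2
    exact hp (by exact_mod_cast h2)
  have h2 := AlgHom.IsArithFrobAt.apply_of_pow_eq_one hF h1 hmP
  rw [hcard] at h2
  have h3 : F ζ = ζ ^ (p : ℕ) := by
    have h4 := congrArg (fun x : 𝓞 M => (x : M)) h2
    exact h4
  have h5 := hζ.autToPow_spec ℚ F
  rw [h3] at h5
  have h6 : ((cyc hζ F : (ZMod m)ˣ) : ZMod m).val ≡ (p : ℕ) [MOD m] := by
    have h8 : ζ ^ ((cyc hζ F : (ZMod m)ˣ) : ZMod m).val = ζ ^ ((p : ℕ) % m) := by
      have h9 : ζ ^ ((p : ℕ) % m) = ζ ^ (p : ℕ) := by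
        conv_rhs => rw [← Nat.mod_add_div (p : ℕ) m, pow_add, pow_mul, hζ.pow_eq_one, one_pow,
          mul_one]
      rw [h9]
      exact h5
    have h10 := hζ.pow_inj (ZMod.val_lt _) (Nat.mod_lt _ (Nat.pos_of_ne_zero (NeZero.ne m))) h8
    rw [h10]
    exact Nat.mod_modEq _ _
  have h7 := (ZMod.natCast_eq_natCast_iff _ _ _).mpr h6
  rwa [ZMod.natCast_zmod_val] at h7

variable {D : ℕ} (hgood : ∀ p : ℕ, p.Prime → ¬ p ∣ D → ∀ P : Ideal (𝓞 M), P.IsPrime →
  (p : 𝓞 M) ∈ P → P.inertia Gal(M/ℚ) = ⊥) (hD : D ≠ 0) (hmD : m ∣ D)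

theorem cyc_of_W_ne_zero (hmD : m ∣ D) {g : Gal(M/ℚ)} {p : Nat.Primes} (h : W D g p ≠ 0) :
    ((cyc hζ g : (ZMod m)ˣ) : ZMod m) = ((p : ℕ) : ZMod m) := by
  unfold W at h
  split_ifs at h with hp
  · exact absurd rfl h
  · have h1 : wt g p ≠ 0 := by
      intro h0
      apply h
      rw [h0]; simp
    unfold wt at h1
    obtain ⟨P, hP, hne⟩ := Finset.exists_ne_zero_of_sum_ne_zero h1
    split_ifs at hne with hfr
    · rw [← hfr]
      exact cyc_frob hζ (fun h2 => hp (h2.trans hmD)) hP (isArithFrobAt_frobOf M hP)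
    · exact absurd rfl hne

/-- the character `χ ∘ cyc` -/
noncomputable def chc (χ : DirichletCharacter ℂ m) (g : Gal(M/ℚ)) : ℂ :=
  χ ((cyc hζ g : (ZMod m)ˣ) : ZMod m)

theorem chc_eq (χ : DirichletCharacter ℂ m) (g : Gal(M/ℚ)) :
    chc hζ χ g = ((χ.toUnitHom (cyc hζ g) : ℂˣ) : ℂ) := (MulChar.coe_toUnitHom χ _).symm

theorem chc_mul (χ : DirichletCharacter ℂ m) (g h : Gal(M/ℚ)) :
    chc hζ χ (g * h) = chc hζ χ g * chc hζ χ h := by
  simp [chc]

theorem chc_ne_zero (χ : DirichletCharacter ℂ m) (g : Gal(M/ℚ)) : chc hζ χ g ≠ 0 := by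
  rw [chc_eq]; exact Units.ne_zero _

theorem norm_dir_le (χ : DirichletCharacter ℂ m) (a : ZMod m) : ‖χ a‖ ≤ 1 :=
  DirichletCharacter.norm_le_one χ a

include hgood hD hmD in
/-- twisted sums over a subgroup in terms of sums over degree one primes. -/
theorem bdd_twist (χ : DirichletCharacter ℂ m) (H : Subgroup Gal(M/ℚ)) :
    Bdd fun s => ∑ h : Gal(M/ℚ) with h ∈ H, chc hζ χ h * Esum (W D h) s -
      (Nat.card H : ℂ) * Psum (dchar (FixedPoints.intermediateField H : IntermediateField ℚ M) χ)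
        s := by
  set K := (FixedPoints.intermediateField H : IntermediateField ℚ M)
  have h1 := (bdd_Psum_sub_Esum (K := K) (fun n => χ (n : ZMod m))
    (fun n => norm_dir_le χ _)).const_mul (Nat.card H : ℂ)
  have hs1 : ESummable fun p : Nat.Primes => ∑ h : Gal(M/ℚ) with h ∈ H,
      chc hζ χ h * W D h p := by
    intro s hs
    have := summable_sum (s := Finset.univ.filter fun h : Gal(M/ℚ) => h ∈ H)
      fun h _ => ((eSummable_W hgood h).const_mul (chc hζ χ h)) s hs
    exact this.congr fun p => by rw [Finset.sum_mul]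
  have hs2 : ESummable fun p : Nat.Primes => χ ((p : ℕ) : ZMod m) * ac K p :=
    summable_mul_ac fun p => norm_dir_le χ _
  have h2 : Bdd fun s => Esum (fun p => ∑ h : Gal(M/ℚ) with h ∈ H,
      chc hζ χ h * W D h p) s -
      Esum (fun p => (Nat.card H : ℂ) * (χ ((p : ℕ) : ZMod m) * ac K p)) s := by
    refine bdd_Esum_sub hs1 (hs2.const_mul _) hD fun p hp => ?_
    rw [mul_left_comm, card_mul_ac' hgood H hp, Finset.mul_sum]
    refine Finset.sum_congr rfl fun h _ => ?_
    by_cases hW : W D h p = 0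
    · rw [hW]; ring
    · rw [chc, cyc_of_W_ne_zero hζ hmD hW]
  have h3 : Bdd fun s => (Nat.card H : ℂ) * (Psum (dchar K χ) s -
      Esum (fun p => χ ((p : ℕ) : ZMod m) * ac K p) s) := h1
  refine (h2.sub h3).congr fun s hs => ?_
  rw [Esum_sum _ (fun h _ => (eSummable_W hgood h).const_mul _) hs.1, Esum_const_mul]
  simp_rw [Esum_const_mul]
  ring

include hgood hD hmD in
/-- existence of an ideal with nontrivial value. -/
theorem exists_ideal_ne (χ : DirichletCharacter ℂ m) (H : Subgroup Gal(M/ℚ))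
    (hχ : ∃ h ∈ H, chc hζ χ h ≠ 1) :
    ∃ I₀ : (Ideal (𝓞 (FixedPoints.intermediateField H : IntermediateField ℚ M)))⁰,
      dchar (FixedPoints.intermediateField H : IntermediateField ℚ M) χ I₀ ≠ 0 ∧
      dchar (FixedPoints.intermediateField H : IntermediateField ℚ M) χ I₀ ≠ 1 := by
  set K := (FixedPoints.intermediateField H : IntermediateField ℚ M) with hK
  by_contra hcon
  push Not at hcon
  set H' : Subgroup Gal(M/ℚ) := H ⊓ (χ.toUnitHom.comp (cyc hζ)).ker with hH'
  have hmem : ∀ h, h ∈ H' ↔ h ∈ H ∧ chc hζ χ h = 1 := by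
    intro h
    rw [hH', Subgroup.mem_inf, MonoidHom.mem_ker, chc_eq, Units.val_eq_one]
    rfl
  have hW : ∀ h ∈ H, h ∉ H' → ∀ p, W D h p = 0 := by
    intro h hh hh' p
    by_contra hne
    have h1 := cyc_of_W_ne_zero hζ hmD hne
    have hpD : ¬ (p : ℕ) ∣ D := by
      intro hpD
      exact hne (by rw [W, if_pos hpD])
    have h2 := card_mul_ac hgood H hpD
    have h3 : 0 < ∑ h : Gal(M/ℚ) with h ∈ H, wt h p := by
      have h4 : 0 < wt h p := by
        rw [Nat.pos_iff_ne_zero]
        intro h0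
        apply hne
        rw [W, if_neg hpD, h0]; simp
      exact h4.trans_le (Finset.single_le_sum (f := fun h => wt h p) (fun _ _ => Nat.zero_le _)
        (by simp [hh]))
    rw [← h2] at h3
    have h5 : 0 < idealCount (𝓞 K) p := Nat.pos_of_mul_pos_left h3
    unfold idealCount at h5
    have h6 : Nonempty {I : Ideal (𝓞 K) // absNorm I = (p : ℕ)} := (Nat.card_pos_iff.mp h5).1
    obtain ⟨I, hI⟩ := h6
    have hI0 : I ∈ (Ideal (𝓞 K))⁰ := by
      rw [← absNorm_ne_zero_iff_mem_nonZeroDivisors, hI]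
      exact p.2.ne_zero
    have h7 : dchar K χ ⟨I, hI0⟩ = chc hζ χ h := by
      rw [dchar, chc, h1]
      change χ ((absNorm I : ℕ) : ZMod m) = _
      rw [hI]
    have h8 := hcon ⟨I, hI0⟩ (by rw [h7]; exact chc_ne_zero hζ χ h)
    rw [h7] at h8
    exact hh' ((hmem h).mpr ⟨hh, h8⟩)
  have h1 := bdd_sum_subgroup hgood hD H
  have h2 := bdd_sum_subgroup hgood hD H'
  have h3 : ∀ s, ∑ h : Gal(M/ℚ) with h ∈ H, Esum (W D h) s =
      ∑ h : Gal(M/ℚ) with h ∈ H', Esum (W D h) s := by
    intro s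
    symm
    refine Finset.sum_subset (fun h hh => ?_) fun h hh hh' => ?_
    · simp only [Finset.mem_filter, Finset.mem_univ, true_and] at hh ⊢
      exact ((hmem h).mp hh).1
    · simp only [Finset.mem_filter, Finset.mem_univ, true_and] at hh hh'
      unfold Esum
      simp_rw [hW h hh hh', zero_mul]
      exact tsum_zero
  have h4 : Bdd fun s => ((Nat.card H : ℂ) - Nat.card H') * lg s :=
    (h2.sub h1).congr fun s _ => by rw [h3]; ring
  have h5 := not_bdd_lg h4
  have h6 : Nat.card H = Nat.card H' := by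
    rw [sub_eq_zero] at h5
    exact_mod_cast h5
  have h7 : H' = H := by
    apply Subgroup.eq_of_le_of_card_ge (inf_le_left)
    rw [h6]
  obtain ⟨h, hh, hne⟩ := hχ
  rw [← h7] at hh
  exact hne ((hmem h).mp hh).2

end Cyc

end Fermat.Agent.ChebFull
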