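import Mathlib
import Fermat.Agent.ChebFull.Cyclo

/-!
# Chebotarev's theorem for elements on which a cyclotomic character is injective, II
-/

set_option linter.unusedSectionVars false
set_option linter.unusedVariables false

open NumberField Ideal Filter Topology Pointwise

open scoped Classical nonZeroDivisors

namespace Fermat.Agent.ChebFull

open IdealL Cheb

variable {M : Type*} [Field M] [NumberField M] [IsGalois ℚ M] {m : ℕ} [NeZero m] {ζ : M}
  (hζ : IsPrimitiveRoot ζ m)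

variable {D : ℕ} (hgood : ∀ p : ℕ, p.Prime → ¬ p ∣ D → ∀ P : Ideal (𝓞 M), P.IsPrime →
  (p : 𝓞 M) ∈ P → P.inertia Gal(M/ℚ) = ⊥) (hD : D ≠ 0) (hmD : m ∣ D)

theorem chc_one_left (g : Gal(M/ℚ)) : chc hζ (1 : DirichletCharacter ℂ m) g = 1 := by
  unfold chc
  exact MulChar.one_apply_coe _

theorem chc_one_right (χ : DirichletCharacter ℂ m) : chc hζ χ 1 = 1 := by
  simp [chc]

theorem sum_chc (g : Gal(M/ℚ)) :
    ∑ χ : DirichletCharacter ℂ m, chc hζ χ g = if cyc hζ g = 1 then (m.totient : ℂ) else 0 := by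
  unfold chc
  rw [DirichletCharacter.sum_characters_eq]
  simp only [Units.val_eq_one]

theorem sum_inv_chc (t g : Gal(M/ℚ)) :
    ∑ χ : DirichletCharacter ℂ m, chc hζ χ t⁻¹ * chc hζ χ g =
      if cyc hζ t = cyc hζ g then (m.totient : ℂ) else 0 := by
  simp_rw [← chc_mul]
  rw [sum_chc]
  simp only [_root_.map_mul, map_inv, inv_mul_eq_one]

theorem sum_chc_subgroup (χ : DirichletCharacter ℂ m) (H : Subgroup Gal(M/ℚ))
    (hχ : ∃ h ∈ H, chc hζ χ h ≠ 1) : ∑ h : Gal(M/ℚ) with h ∈ H, chc hζ χ h = 0 := by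
  obtain ⟨h₀, hh₀, hne⟩ := hχ
  refine eq_zero_of_mul_eq_self_left hne ?_
  rw [Finset.mul_sum]
  refine Finset.sum_bij (fun h _ => h₀ * h) (fun h hh => ?_) (fun a _ b _ hab => ?_)
    (fun b hb => ?_) fun h _ => ?_
  · simp only [Finset.mem_filter, Finset.mem_univ, true_and] at hh ⊢
    exact H.mul_mem hh₀ hh
  · exact mul_left_cancel hab
  · simp only [Finset.mem_filter, Finset.mem_univ, true_and] at hb
    exact ⟨h₀⁻¹ * b, by simpa using H.mul_mem (H.inv_mem hh₀) hb, by group⟩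
  · rw [chc_mul]

/-- characters trivial on `H` -/
noncomputable def triv (H : Subgroup Gal(M/ℚ)) : Finset (DirichletCharacter ℂ m) :=
  Finset.univ.filter fun χ => ∀ h ∈ H, chc hζ χ h = 1

theorem card_triv (H : Subgroup Gal(M/ℚ)) (hinj : ∀ h ∈ H, cyc hζ h = 1 → h = 1) :
    ((triv hζ H).card : ℂ) * Nat.card H = m.totient := by
  have h1 : ∑ χ : DirichletCharacter ℂ m, ∑ h : Gal(M/ℚ) with h ∈ H, chc hζ χ h =
      ((triv hζ H).card : ℂ) * Nat.card H := by
    rw [← Finset.sum_subset (Finset.subset_univ (triv hζ H)) fun χ _ hχ => ?_]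
    · rw [Finset.sum_congr rfl (g := fun _ => (Nat.card H : ℂ)) fun χ hχ => ?_]
      · rw [Finset.sum_const, nsmul_eq_mul]
      · rw [triv, Finset.mem_filter] at hχ
        rw [Finset.sum_congr rfl (g := fun _ => (1 : ℂ)) fun h hh => hχ.2 h
          (by simpa using hh)]
        rw [Finset.sum_const, nsmul_eq_mul, mul_one, Nat.card_eq_fintype_card,
          Fintype.card_subtype]
    · refine sum_chc_subgroup hζ χ H ?_
      by_contra hcon
      push Not at hcon
      exact hχ (by rw [triv, Finset.mem_filter]; exact ⟨Finset.mem_univ _, hcon⟩)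
  rw [← h1, Finset.sum_comm]
  simp_rw [sum_chc]
  rw [Finset.sum_eq_single 1]
  · rw [_root_.map_one, if_pos rfl]
  · intro b hb hb1
    rw [if_neg fun h => hb1 (hinj b (by simpa using hb) h)]
  · intro h
    exact absurd (by simp [H.one_mem]) h

include hgood hD in
theorem bdd_one : Bdd fun s => Esum (W (M := M) D 1) s - lg s := by
  refine (bdd_sum_subgroup hgood hD ⊥).congr fun s _ => ?_
  rw [Finset.sum_eq_single 1]
  · simp
  · intro b hb hb1
    exact absurd (by simpa using hb) hb1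
  · intro h
    exact absurd (by simp) h

/-- the twisted sum -/
noncomputable def yy (D : ℕ) (H : Subgroup Gal(M/ℚ)) (χ : DirichletCharacter ℂ m) (s : ℝ) : ℂ :=
  ∑ h : Gal(M/ℚ) with h ∈ H, chc hζ χ h * Esum (W D h) s

include hgood hD in
theorem bdd_yy_triv (H : Subgroup Gal(M/ℚ)) {χ : DirichletCharacter ℂ m} (hχ : χ ∈ triv hζ H) :
    Bdd fun s => yy hζ D H χ s - (Nat.card H : ℂ) * lg s := by
  refine (bdd_sum_subgroup hgood hD H).congr fun s _ => ?_
  rw [triv, Finset.mem_filter] at hχ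
  unfold yy
  congr 1
  refine Finset.sum_congr rfl fun h hh => ?_
  rw [hχ.2 h (by simpa using hh), one_mul]

theorem sum_yy (H : Subgroup Gal(M/ℚ)) (hinj : ∀ h ∈ H, cyc hζ h = 1 → h = 1)
    {t : Gal(M/ℚ)} (ht : t ∈ H) (s : ℝ) :
    ∑ χ : DirichletCharacter ℂ m, chc hζ χ t⁻¹ * yy hζ D H χ s =
      m.totient * Esum (W D t) s := by
  unfold yy
  simp_rw [Finset.mul_sum, ← mul_assoc]
  rw [Finset.sum_comm]
  simp_rw [← Finset.sum_mul, sum_inv_chc]
  rw [Finset.sum_eq_single t]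
  · rw [if_pos rfl]
  · intro b hb hbt
    rw [if_neg, zero_mul]
    intro h
    apply hbt
    have h2 := hinj (t⁻¹ * b) (H.mul_mem (H.inv_mem ht) (by simpa using hb))
      (by rw [_root_.map_mul, map_inv, h, inv_mul_cancel])
    exact (inv_mul_eq_one.mp h2).symm
  · intro h
    exact absurd (by simpa using ht) h

theorem dchar_one (K : Type*) [Field K] [NumberField K] (χ : DirichletCharacter ℂ m) :
    dchar K χ 1 = 1 := by
  unfold dchar
  simp

theorem dchar_mul (K : Type*) [Field K] [NumberField K] (χ : DirichletCharacter ℂ m)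
    (I J : (Ideal (𝓞 K))⁰) : dchar K χ (I * J) = dchar K χ I * dchar K χ J := by
  unfold dchar
  rw [Submonoid.coe_mul, _root_.map_mul, Nat.cast_mul, _root_.map_mul]

theorem norm_dchar_le (K : Type*) [Field K] [NumberField K] (χ : DirichletCharacter ℂ m)
    (I : (Ideal (𝓞 K))⁰) : ‖dchar K χ I‖ ≤ 1 := norm_dir_le χ _

include hgood hD hmD in
theorem exists_re_yy_le (H : Subgroup Gal(M/ℚ)) {χ : DirichletCharacter ℂ m}
    (hχ : χ ∉ triv hζ H) :
    ∃ C : ℝ, ∀ s ∈ Set.Ioc (1 : ℝ) 2, (yy hζ D H χ s).re ≤ C := by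
  have hχ' : ∃ h ∈ H, chc hζ χ h ≠ 1 := by
    by_contra hcon
    push Not at hcon
    exact hχ (by rw [triv, Finset.mem_filter]; exact ⟨Finset.mem_univ _, hcon⟩)
  obtain ⟨I₀, h0, h1⟩ := exists_ideal_ne hζ hgood hD hmD χ H hχ'
  obtain ⟨ℓ, hL⟩ := exists_tendsto_dchar χ h0 h1
  obtain ⟨C, hC⟩ := exists_re_le (dchar_one _ χ) (dchar_mul _ χ) (norm_dchar_le _ χ) hL
  obtain ⟨C', hC'⟩ := bdd_twist hζ hgood hD hmD χ H
  refine ⟨Nat.card H * C + C', fun s hs => ?_⟩
  have h2 := (Complex.abs_re_le_norm _).trans (hC' s hs)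
  rw [Complex.sub_re, abs_le] at h2
  have h3 : (((Nat.card H : ℂ) * Psum (dchar (FixedPoints.intermediateField H :
      IntermediateField ℚ M) χ) s)).re = Nat.card H * (Psum (dchar
      (FixedPoints.intermediateField H : IntermediateField ℚ M) χ) s).re := by
    rw [← Complex.ofReal_natCast, Complex.re_ofReal_mul]
  rw [h3] at h2
  have h4 := mul_le_mul_of_nonneg_left (hC s hs) (Nat.cast_nonneg (α := ℝ) (Nat.card H))
  unfold yy
  linarith [h2.2]

include hgood hD hmD in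
theorem bdd_yy_of_le (H : Subgroup Gal(M/ℚ)) {χ : DirichletCharacter ℂ m}
    (hχ : χ ∉ triv hζ H) {C : ℝ} (hC : ∀ s ∈ Set.Ioc (1 : ℝ) 2, C ≤ (yy hζ D H χ s).re) :
    Bdd (yy hζ D H χ) := by
  have hχ' : ∃ h ∈ H, chc hζ χ h ≠ 1 := by
    by_contra hcon
    push Not at hcon
    exact hχ (by rw [triv, Finset.mem_filter]; exact ⟨Finset.mem_univ _, hcon⟩)
  obtain ⟨I₀, h0, h1⟩ := exists_ideal_ne hζ hgood hD hmD χ H hχ'
  obtain ⟨ℓ, hL⟩ := exists_tendsto_dchar χ h0 h1
  obtain ⟨C', hC'⟩ := bdd_twist hζ hgood hD hmD χ H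
  have hH : 0 < (Nat.card H : ℝ) := by exact_mod_cast Nat.card_pos
  have h3 : ∀ s, (((Nat.card H : ℂ) * Psum (dchar (FixedPoints.intermediateField H :
      IntermediateField ℚ M) χ) s)).re = Nat.card H * (Psum (dchar
      (FixedPoints.intermediateField H : IntermediateField ℚ M) χ) s).re := by
    intro s
    rw [← Complex.ofReal_natCast, Complex.re_ofReal_mul]
  have h5 : ∀ s ∈ Set.Ioc (1 : ℝ) 2, (C - C') / Nat.card H ≤ (Psum (dchar
      (FixedPoints.intermediateField H : IntermediateField ℚ M) χ) s).re := by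
    intro s hs
    have h2 := (Complex.abs_re_le_norm _).trans (hC' s hs)
    rw [Complex.sub_re, abs_le, h3] at h2
    rw [div_le_iff₀ hH]
    have := hC s hs
    unfold yy at this
    linarith [h2.2]
  obtain ⟨C'', hC''⟩ := exists_norm_le (dchar_one _ χ) (dchar_mul _ χ) (norm_dchar_le _ χ) hL h5
  have h6 : Bdd fun s => (Nat.card H : ℂ) * Psum (dchar
      (FixedPoints.intermediateField H : IntermediateField ℚ M) χ) s :=
    Bdd.const_mul _ ⟨C'', hC''⟩
  refine ((bdd_twist hζ hgood hD hmD χ H).add h6).congr fun s _ => ?_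
  unfold yy
  ring

include hgood hD hmD in
/-- **Theorem X**: Chebotarev for elements of a subgroup on which the cyclotomic character is
injective. -/
theorem bdd_of_injOn (H : Subgroup Gal(M/ℚ)) (hinj : ∀ h ∈ H, cyc hζ h = 1 → h = 1)
    {t : Gal(M/ℚ)} (ht : t ∈ H) : Bdd fun s => Esum (W D t) s - lg s := by
  have hm : (m.totient : ℂ) ≠ 0 := by
    exact_mod_cast (Nat.totient_pos.mpr (Nat.pos_of_ne_zero (NeZero.ne m))).ne'
  -- the sum over the nontrivial characters is bounded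
  have hsum : ∀ (c : DirichletCharacter ℂ m → ℂ), (∀ χ ∈ triv hζ H, c χ = 1) →
      Bdd fun s => (∑ χ : DirichletCharacter ℂ m, c χ * yy hζ D H χ s) -
        (m.totient : ℂ) * lg s - ∑ χ ∈ (triv hζ H)ᶜ, c χ * yy hζ D H χ s := by
    intro c hc
    have h1 := Bdd.sum (triv hζ H) (f := fun χ s => yy hζ D H χ s - (Nat.card H : ℂ) * lg s)
      fun χ hχ => bdd_yy_triv hζ hgood hD H hχ
    refine h1.congr fun s _ => ?_
    rw [← Finset.sum_add_sum_compl (triv hζ H), Finset.sum_sub_distrib, Finset.sum_const,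
      nsmul_eq_mul, ← mul_assoc, card_triv hζ H hinj]
    have h2 : ∑ χ ∈ triv hζ H, c χ * yy hζ D H χ s = ∑ χ ∈ triv hζ H, yy hζ D H χ s :=
      Finset.sum_congr rfl fun χ hχ => by rw [hc χ hχ, one_mul]
    rw [h2]
    ring
  have h1 : Bdd fun s => ∑ χ ∈ (triv hζ H)ᶜ, yy hζ D H χ s := by
    have h2 := hsum (fun _ => 1) fun _ _ => rfl
    have h3 := (bdd_one (M := M) hgood hD).const_mul (m.totient : ℂ)
    refine (h3.sub h2).congr fun s _ => ?_
    have h4 := sum_yy (D := D) hζ H hinj H.one_mem s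
    rw [inv_one] at h4
    simp_rw [chc_one_right] at h4
    rw [h4]
    simp only [one_mul]
    ring
  obtain ⟨C1, hC1⟩ := h1
  choose! C hC using fun χ (hχ : χ ∉ triv hζ H) =>
    exists_re_yy_le hζ hgood hD hmD H hχ
  have h2 : ∀ χ ∉ triv hζ H, Bdd (yy hζ D H χ) := by
    intro χ hχ
    refine bdd_yy_of_le hζ hgood hD hmD H hχ
      (C := -C1 - ∑ χ' ∈ (triv hζ H)ᶜ.erase χ, C χ') fun s hs => ?_
    have hχ' : χ ∈ (triv hζ H)ᶜ := Finset.mem_compl.mpr hχ
    have h3 := (Complex.abs_re_le_norm _).trans (hC1 s hs)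
    beta_reduce at h3
    rw [← Finset.add_sum_erase _ _ hχ', Complex.add_re, Complex.re_sum, abs_le] at h3
    have h4 : ∑ χ' ∈ (triv hζ H)ᶜ.erase χ, (yy hζ D H χ' s).re ≤
        ∑ χ' ∈ (triv hζ H)ᶜ.erase χ, C χ' := by
      refine Finset.sum_le_sum fun χ' hχ' => hC χ' ?_ s hs
      exact Finset.mem_compl.mp (Finset.mem_of_mem_erase hχ')
    linarith [h3.1]
  have h3 := hsum (fun χ => chc hζ χ t⁻¹) fun χ hχ => by
    rw [triv, Finset.mem_filter] at hχ
    exact hχ.2 _ (H.inv_mem ht)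
  have h4 := Bdd.sum (triv hζ H)ᶜ (f := fun χ s => chc hζ χ t⁻¹ * yy hζ D H χ s)
    fun χ hχ => (h2 χ (Finset.mem_compl.mp hχ)).const_mul _
  refine ((h3.add h4).const_mul (m.totient : ℂ)⁻¹).congr fun s _ => ?_
  rw [sum_yy hζ H hinj ht]
  field_simp
  ring

end Fermat.Agent.ChebFull
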