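import Mathlib
import Fermat.Agent.ChebFull.Inject
import Fermat.Agent.ChebFull.Good

/-!
# The crossing argument
-/

set_option linter.unusedSectionVars false
set_option linter.unusedVariables false

open NumberField Ideal Filter Topology Pointwise

open scoped Classical nonZeroDivisors

namespace Fermat.Agent.ChebFull

open IdealL Cheb

section

variable {M : Type*} [Field M] [NumberField M] [IsGalois ℚ M] {m : ℕ} [NeZero m] {ζ : M}
  (hζ : IsPrimitiveRoot ζ m)

variable {D : ℕ} (hgood : ∀ p : ℕ, p.Prime → ¬ p ∣ D → ∀ P : Ideal (𝓞 M), P.IsPrime →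
  (p : 𝓞 M) ∈ P → P.inertia Gal(M/ℚ) = ⊥) (hD : D ≠ 0) (hmD : m ∣ D)

/-- real version of the weight -/
noncomputable def WR (D : ℕ) (g : Gal(M/ℚ)) (p : Nat.Primes) : ℝ :=
  if (p : ℕ) ∣ D then 0 else (wt g p : ℝ)

theorem WR_nonneg (g : Gal(M/ℚ)) (p : Nat.Primes) : 0 ≤ WR D g p := by
  unfold WR
  split_ifs
  · exact le_rfl
  · exact Nat.cast_nonneg _

theorem W_eq (g : Gal(M/ℚ)) (p : Nat.Primes) : W D g p = (WR D g p : ℂ) := by
  unfold W WR
  split_ifs <;> simp

theorem Esum_W (g : Gal(M/ℚ)) (s : ℝ) :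
    Esum (W D g) s = ((∑' p : Nat.Primes, WR D g p * ((p : ℕ) : ℝ) ^ (-s) : ℝ) : ℂ) := by
  unfold Esum
  rw [Complex.ofReal_tsum]
  refine tsum_congr fun p => ?_
  rw [W_eq]
  push_cast
  rfl

include hgood in
theorem summable_WR (g : Gal(M/ℚ)) {s : ℝ} (hs : 1 < s) :
    Summable fun p : Nat.Primes => WR D g p * ((p : ℕ) : ℝ) ^ (-s) := by
  have h1 := eSummable_W hgood g s hs
  rw [← Complex.summable_ofReal]
  refine h1.congr fun p => ?_
  rw [W_eq]
  push_cast
  rfl

include hζ hgood hD hmD in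
theorem bddNear_WR (H : Subgroup Gal(M/ℚ)) (hinj : ∀ h ∈ H, cyc hζ h = 1 → h = 1)
    {t : Gal(M/ℚ)} (ht : t ∈ H) :
    BddNear fun s => ∑' p : Nat.Primes, WR D t p * ((p : ℕ) : ℝ) ^ (-s) -
      Real.log (1 / (s - 1)) := by
  refine (bdd_of_injOn hζ hgood hD hmD H hinj ht).re.congr fun s _ _ => ?_
  rw [Esum_W, lg, Complex.sub_re, Complex.ofReal_re, Complex.ofReal_re]

/-- total weight of a set at a prime. -/
theorem sum_wt_le (S : Finset Gal(M/ℚ)) (p : Nat.Primes) :
    ∑ g ∈ S, wt g p ≤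
      if ∃ P ∈ primesAbove M p, frobOf P ∈ S then Fintype.card Gal(M/ℚ) else 0 := by
  haveI := Fact.mk p.2
  unfold wt
  rw [Finset.sum_comm]
  have h1 : ∀ P ∈ primesAbove M p, ∑ g ∈ S, (if frobOf P = g then
      Nat.card (MulAction.stabilizer Gal(M/ℚ) P) else 0) =
      if frobOf P ∈ S then Nat.card (MulAction.stabilizer Gal(M/ℚ) P) else 0 := by
    intro P _
    rw [Finset.sum_ite_eq]
  rw [Finset.sum_congr rfl h1]
  split_ifs with h
  · haveI hprime : (Ideal.span {(p : ℤ)}).IsPrime :=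
      (Int.ideal_span_isMaximal_of_prime p).isPrime
    have h2 := sum_card_stabilizer (H := (⊤ : Subgroup Gal(M/ℚ))) (A := ℤ) (B := 𝓞 M)
      (I := Ideal.span {(p : ℤ)}) (primesAbove M p) (fun P => by
        rw [mem_primesAbove]
        constructor
        · rintro ⟨h3, h4⟩
          exact ⟨h3, under_int h4⟩
        · rintro ⟨h3, h4⟩
          refine ⟨h3, ?_⟩
          have h5 : ((p : ℤ) : ℤ) ∈ P.under ℤ := by
            rw [h4]; exact Ideal.mem_span_singleton_self _
          rw [Ideal.mem_comap] at h5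
          simpa using h5)
    rw [Subgroup.card_top, Nat.card_eq_fintype_card] at h2
    rw [← h2]
    refine Finset.sum_le_sum fun P _ => ?_
    rw [card_stabilizer_of_le (H := (⊤ : Subgroup Gal(M/ℚ))) le_top]
    split_ifs
    · exact le_rfl
    · exact Nat.zero_le _
  · push Not at h
    refine (Finset.sum_eq_zero fun P hP => ?_).le
    rw [if_neg (h P hP)]

theorem card_units_le (hζ : IsPrimitiveRoot ζ m) :
    Fintype.card (ZMod m)ˣ ≤ Fintype.card Gal(M/ℚ) := by
  have h1 : Fintype.card Gal(M/ℚ) = Module.finrank ℚ M := by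
    rw [← Nat.card_eq_fintype_card]
    exact IsGalois.card_aut_eq_finrank ℚ M
  rw [ZMod.card_units_eq_totient, h1]
  exact (IsPrimitiveRoot.totient_le_degree_minpoly hζ).trans (by
    have := minpoly.natDegree_le (A := ℚ) ζ
    rwa [minpoly.isIntegrallyClosed_eq_field_fractions' ℚ (hζ.isIntegral
      (Nat.pos_of_ne_zero (NeZero.ne m))), (minpoly.monic (hζ.isIntegral
      (Nat.pos_of_ne_zero (NeZero.ne m)))).natDegree_map] at this)

include hζ hgood hD hmD in
/-- **the crossing argument** -/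
theorem exists_lower_crossing {G : Type*} [Group G] [Fintype G] (r : Gal(M/ℚ) →* G)
    (hr : Function.Surjective r) (hrc : ∀ g, r g = 1 → cyc hζ g = 1 → g = 1)
    (hcyc : IsCyclic (ZMod m)ˣ)
    {k : ℕ} (hk : k ≠ 0) (hn : (Fintype.card G) ^ k ∣ Fintype.card (ZMod m)ˣ) (B : Finset G) :
    ∃ C : ℝ, ∀ s ∈ Set.Ioc (1 : ℝ) 2,
      ((B.card : ℝ) / Fintype.card G - (Fintype.card G : ℝ) ^ 2 / 2 ^ k) *
        Real.log (1 / (s - 1)) - C ≤
      ∑' p : Nat.Primes, if ¬ (p : ℕ) ∣ D ∧ ∃ P ∈ primesAbove M p, r (frobOf P) ∈ B then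
        ((p : ℕ) : ℝ) ^ (-s) else 0 := by
  set S := Finset.univ.filter fun g : Gal(M/ℚ) =>
    r g ∈ B ∧ Fintype.card G ∣ orderOf (cyc hζ g) with hS
  set N : ℝ := (Fintype.card Gal(M/ℚ) : ℝ) with hN
  have hN0 : 0 < N := by rw [hN]; exact_mod_cast Fintype.card_pos
  have hcount := card_good_ge r (cyc hζ) hr hrc (card_units_le hζ) hk hn B
  rw [← hS, ← hN] at hcount
  have hgoodelt : ∀ g ∈ S, BddNear fun s =>
      ∑' p : Nat.Primes, WR D g p * ((p : ℕ) : ℝ) ^ (-s) - Real.log (1 / (s - 1)) := by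
    intro g hg
    rw [hS, Finset.mem_filter] at hg
    refine bddNear_WR hζ hgood hD hmD (Subgroup.zpowers g) (fun h hh hh1 => ?_)
      (Subgroup.mem_zpowers g)
    rw [Subgroup.mem_zpowers_iff] at hh
    obtain ⟨j, rfl⟩ := hh
    rw [map_zpow] at hh1
    refine hrc _ ?_ (by rw [map_zpow]; exact hh1)
    rw [map_zpow]
    have h1 : ((orderOf (cyc hζ g) : ℕ) : ℤ) ∣ j := orderOf_dvd_iff_zpow_eq_one.mpr hh1
    have h2 : ((orderOf (r g) : ℕ) : ℤ) ∣ j := by
      refine dvd_trans ?_ h1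
      exact_mod_cast (orderOf_dvd_card (x := r g)).trans hg.2.2
    exact orderOf_dvd_iff_zpow_eq_one.mp h2
  obtain ⟨C, hC⟩ := BddNear.sum S hgoodelt
  refine ⟨N⁻¹ * C, fun s hs => ?_⟩
  have h1 := hC s hs.1 hs.2
  have hlog : 0 ≤ Real.log (1 / (s - 1)) := by
    apply Real.log_nonneg
    rw [le_div_iff₀ (by linarith [hs.1])]
    linarith [hs.2]
  have h2 : ∑ g ∈ S, (∑' p : Nat.Primes, WR D g p * ((p : ℕ) : ℝ) ^ (-s)) ≤
      N * ∑' p : Nat.Primes, if ¬ (p : ℕ) ∣ D ∧ ∃ P ∈ primesAbove M p, r (frobOf P) ∈ B then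
        ((p : ℕ) : ℝ) ^ (-s) else 0 := by
    rw [← Summable.tsum_finsetSum fun g _ => summable_WR hgood g hs.1, ← tsum_mul_left]
    refine Summable.tsum_le_tsum (fun p => ?_)
      (summable_sum fun g _ => summable_WR hgood g hs.1) ?_
    · rw [← Finset.sum_mul]
      have hp0 : 0 ≤ ((p : ℕ) : ℝ) ^ (-s) := Real.rpow_nonneg (Nat.cast_nonneg _) _
      by_cases hpD : (p : ℕ) ∣ D
      · have h3 : ∑ g ∈ S, WR D g p = 0 :=
          Finset.sum_eq_zero fun g _ => by rw [WR, if_pos hpD]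
        rw [h3, zero_mul]
        split_ifs <;> positivity
      · have h3 : ∑ g ∈ S, WR D g p = ((∑ g ∈ S, wt g p : ℕ) : ℝ) := by
          push_cast
          exact Finset.sum_congr rfl fun g _ => by rw [WR, if_neg hpD]
        have h4 := sum_wt_le S p
        rw [h3]
        by_cases hex : ∃ P ∈ primesAbove M p, r (frobOf P) ∈ B
        · rw [if_pos ⟨hpD, hex⟩]
          refine mul_le_mul_of_nonneg_right ?_ hp0
          rw [hN]
          have h5 : ∑ g ∈ S, wt g p ≤ Fintype.card Gal(M/ℚ) := by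
            refine h4.trans ?_
            split_ifs
            · exact le_rfl
            · exact Nat.zero_le _
          exact_mod_cast h5
        · rw [if_neg fun h => hex h.2]
          rw [if_neg] at h4
          · rw [Nat.le_zero.mp h4]; simp
          · rintro ⟨P, hP, hPS⟩
            rw [hS, Finset.mem_filter] at hPS
            exact hex ⟨P, hP, hPS.2.1⟩
    · refine Summable.mul_left N ?_
      refine Summable.of_nonneg_of_le (fun p => ?_) (fun p => ?_)
        ((Nat.Primes.summable_rpow (r := -s)).mpr (by linarith [hs.1]))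
      · split_ifs <;> positivity
      · split_ifs
        · exact le_rfl
        · positivity
  beta_reduce at h1
  rw [Finset.sum_sub_distrib, Finset.sum_const, nsmul_eq_mul, abs_le] at h1
  have h3 := mul_le_mul_of_nonneg_right hcount hlog
  have h4 : N * (((B.card : ℝ) / Fintype.card G - (Fintype.card G : ℝ) ^ 2 / 2 ^ k) *
        Real.log (1 / (s - 1)) - N⁻¹ * C) ≤
      N * ∑' p : Nat.Primes, if ¬ (p : ℕ) ∣ D ∧ ∃ P ∈ primesAbove M p, r (frobOf P) ∈ B then
        ((p : ℕ) : ℝ) ^ (-s) else 0 := by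
    refine le_trans ?_ h2
    have h5 : N * (N⁻¹ * C) = C := by field_simp
    rw [mul_sub, h5]
    have h6 := h1.1
    linarith
  exact le_of_mul_le_mul_left h4 hN0

end

end Fermat.Agent.ChebFull
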