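import Mathlib
import Fermat.Agent.ChebFull.Crossing

/-!
# Chebotarev's density theorem (Dirichlet density, lower bound)
-/

set_option linter.unusedSectionVars false
set_option linter.unusedVariables false

open NumberField Ideal Filter Topology Pointwise

open scoped Classical nonZeroDivisors

namespace Fermat.Agent.ChebFull

open IdealL Cheb

section

variable (L : Type*) [Field L] [NumberField L] [IsGalois ℚ L] {m : ℕ} [NeZero m]
  (M : Type*) [Field M] [NumberField M] [Algebra L M] [IsCyclotomicExtension {m} L M]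

theorem isGalois_cyc (m : ℕ) [NeZero m] (L : Type*) [Field L] [NumberField L] [IsGalois ℚ L]
    (M : Type*) [Field M] [NumberField M] [Algebra L M] [IsCyclotomicExtension {m} L M] :
    IsGalois ℚ M := by
  haveI : IsScalarTower ℚ L M := inferInstance
  obtain ⟨f, hf⟩ := Normal.exists_isSplittingField ℚ L
  by_cases hf0 : f = 0
  · subst hf0
    have h1 : (1 : Polynomial ℚ).IsSplittingField ℚ L := by
      refine ⟨by simp, ?_⟩
      have := hf.2
      simpa using this
    have h2 : (Polynomial.map (algebraMap ℚ L) (Polynomial.X ^ m - 1)).IsSplittingField L M := by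
      have := IsCyclotomicExtension.isSplittingField_X_pow_sub_one m L M
      simpa using this
    have h3 := Polynomial.IsSplittingField.mul (F := ℚ) (K := L) M 1 (Polynomial.X ^ m - 1)
      one_ne_zero (Polynomial.X_pow_sub_C_ne_zero (Nat.pos_of_ne_zero (NeZero.ne m)) 1)
    haveI := Normal.of_isSplittingField (F := ℚ) (E := M) _ (hFEp := h3)
    exact {}
  · have h2 : (Polynomial.map (algebraMap ℚ L) (Polynomial.X ^ m - 1)).IsSplittingField L M := by
      have := IsCyclotomicExtension.isSplittingField_X_pow_sub_one m L M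
      simpa using this
    have h3 := Polynomial.IsSplittingField.mul (F := ℚ) (K := L) M f (Polynomial.X ^ m - 1)
      hf0 (Polynomial.X_pow_sub_C_ne_zero (Nat.pos_of_ne_zero (NeZero.ne m)) 1)
    haveI := Normal.of_isSplittingField (F := ℚ) (E := M) _ (hFEp := h3)
    exact {}

variable [IsGalois ℚ M]

theorem restrict_smul (g : Gal(M/ℚ)) (x : 𝓞 L) :
    algebraMap (𝓞 L) (𝓞 M) (AlgEquiv.restrictNormalHom L g • x) =
      g • algebraMap (𝓞 L) (𝓞 M) x := by
  apply RingOfIntegers.coe_injective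
  exact AlgEquiv.restrictNormal_commutes g L (x : L)

variable {M} in
theorem isArithFrobAt_restrict {p : ℕ} (hp : p.Prime) {P : Ideal (𝓞 M)} [P.IsPrime]
    (hP : (p : 𝓞 M) ∈ P) {F : Gal(M/ℚ)} (hF : IsArithFrobAt ℤ F P) :
    IsArithFrobAt ℤ (AlgEquiv.restrictNormalHom L F : Gal(L/ℚ)) (P.under (𝓞 L)) := by
  haveI := Fact.mk hp
  haveI := finite_quotient_of_natCast_mem hp.ne_zero hP
  have hP' : (p : 𝓞 L) ∈ P.under (𝓞 L) := by
    rw [Ideal.mem_comap]; simpa using hP
  haveI := finite_quotient_of_natCast_mem hp.ne_zero hP'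
  rw [isArithFrobAt_int_iff hP']
  intro x
  rw [Ideal.mem_comap, map_sub, map_pow, restrict_smul]
  exact (isArithFrobAt_int_iff hP F).mp hF _

theorem eq_one_of_restrict {ζ : M} (hζ : IsPrimitiveRoot ζ m) {g : Gal(M/ℚ)}
    (h1 : AlgEquiv.restrictNormalHom L g = (1 : Gal(L/ℚ))) (h2 : cyc hζ g = 1) : g = 1 := by
  have hfix : ∀ x : L, g (algebraMap L M x) = algebraMap L M x := by
    intro x
    have h3 := AlgEquiv.restrictNormal_commutes g L x
    have h4 : g.restrictNormal L = (1 : Gal(L/ℚ)) := h1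
    rw [h4] at h3
    exact h3.symm
  set g' : M ≃ₐ[L] M := { g with commutes' := hfix } with hg'
  have h3 : hζ.autToPow L g' = 1 := by
    have h5 := hζ.autToPow_spec ℚ g
    have h6 := hζ.autToPow_spec L g'
    have h7 : ζ ^ ((hζ.autToPow L g' : (ZMod m)ˣ) : ZMod m).val =
        ζ ^ ((hζ.autToPow ℚ g : (ZMod m)ˣ) : ZMod m).val := by
      rw [h5, h6]
      rfl
    have h8 := hζ.pow_inj (ZMod.val_lt _) (ZMod.val_lt _) h7
    have h9 := ZMod.val_injective m h8
    have h10 := Units.ext h9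
    rw [h10]
    exact h2
  have h4 : g' = 1 := IsPrimitiveRoot.autToPow_injective L hζ (by rw [h3, map_one])
  ext x
  have := DFunLike.congr_fun h4 x
  exact this

end

/-- **Chebotarev's density theorem**, Dirichlet density lower bound: for `L/ℚ` finite Galois with
group `G` and a subset `B` of `G`, the set of primes having a Frobenius in `B` has
lower Dirichlet density at least `|B|/|G|`. The set of primes is given by a predicate `T` which only
has to contain almost all primes with a Frobenius element in `B`. -/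
theorem chebotarev_lower (L : Type*) [Field L] [NumberField L] [IsGalois ℚ L]
    (B : Finset Gal(L/ℚ)) (T : ℕ → Prop) (D₀ : ℕ) (hD₀ : D₀ ≠ 0)
    (hT : ∀ p : ℕ, p.Prime → ¬ p ∣ D₀ → ∀ P : Ideal (𝓞 L), P.IsPrime → (p : 𝓞 L) ∈ P →
      ∀ F : Gal(L/ℚ), F ∈ B → IsArithFrobAt ℤ F P → T p) {ε : ℝ} (hε : 0 < ε) :
    ∃ C : ℝ, ∀ s : ℝ, 1 < s → s ≤ 2 →
      ((B.card : ℝ) / Fintype.card Gal(L/ℚ) - ε) * Real.log (1 / (s - 1)) - C ≤
      ∑' p : Nat.Primes, if T p then ((p : ℕ) : ℝ) ^ (-s) else 0 := by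
  set n := Fintype.card Gal(L/ℚ) with hn
  have hn0 : n ≠ 0 := Fintype.card_ne_zero
  -- choice of `k`
  obtain ⟨k, hk0, hk⟩ : ∃ k : ℕ, k ≠ 0 ∧ (n : ℝ) ^ 2 / 2 ^ k ≤ ε := by
    obtain ⟨k, hk⟩ := pow_unbounded_of_one_lt ((n : ℝ) ^ 2 / ε) (one_lt_two)
    refine ⟨k + 1, Nat.succ_ne_zero k, ?_⟩
    rw [div_le_iff₀ (by positivity)]
    rw [div_lt_iff₀ hε] at hk
    have : (2 : ℝ) ^ k ≤ 2 ^ (k + 1) := pow_le_pow_right₀ (by norm_num) (Nat.le_succ k)
    nlinarith
  -- choice of `m`
  obtain ⟨m, hm, hmgt, hmod⟩ := Nat.exists_prime_gt_modEq_one (k := n ^ k) 2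
    (pow_ne_zero k hn0)
  haveI : Fact m.Prime := ⟨hm⟩
  haveI : NeZero m := ⟨hm.ne_zero⟩
  have hdvd : n ^ k ∣ Fintype.card (ZMod m)ˣ := by
    rw [ZMod.card_units_eq_totient, Nat.totient_prime hm]
    exact (Nat.modEq_iff_dvd' hm.pos).mp hmod.symm
  have hcyclic : IsCyclic (ZMod m)ˣ := inferInstance
  set M := CyclotomicField m L with hM
  haveI : IsGalois ℚ M := isGalois_cyc m L M
  have hζ := IsCyclotomicExtension.zeta_spec m L M
  set r : Gal(M/ℚ) →* Gal(L/ℚ) := AlgEquiv.restrictNormalHom L with hr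
  have hrs : Function.Surjective r := AlgEquiv.restrictNormalHom_surjective M
  obtain ⟨D, hD, hgood⟩ := exists_good M
  have hgood' : ∀ p : ℕ, p.Prime → ¬ p ∣ D * D₀ * m → ∀ P : Ideal (𝓞 M), P.IsPrime →
      (p : 𝓞 M) ∈ P → P.inertia Gal(M/ℚ) = ⊥ := fun p hp hpD =>
    hgood p hp fun h => hpD ((h.mul_right D₀).mul_right m)
  obtain ⟨C, hC⟩ := exists_lower_crossing hζ hgood'
    (mul_ne_zero (mul_ne_zero hD hD₀) hm.ne_zero) (dvd_mul_left m (D * D₀)) r hrs
    (fun g h1 h2 => eq_one_of_restrict L M hζ h1 h2) hcyclic hk0 hdvd B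
  refine ⟨C, fun s hs1 hs2 => ?_⟩
  have hlog : 0 ≤ Real.log (1 / (s - 1)) := by
    apply Real.log_nonneg
    rw [le_div_iff₀ (by linarith)]
    linarith
  have h1 := hC s ⟨hs1, hs2⟩
  rw [← hn] at h1
  have h2 : ((B.card : ℝ) / n - ε) * Real.log (1 / (s - 1)) ≤
      ((B.card : ℝ) / n - (n : ℝ) ^ 2 / 2 ^ k) * Real.log (1 / (s - 1)) :=
    mul_le_mul_of_nonneg_right (by linarith) hlog
  refine le_trans (sub_le_sub_right h2 C) (h1.trans ?_)
  have hsum : Summable fun p : Nat.Primes => ((p : ℕ) : ℝ) ^ (-s) :=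
    Nat.Primes.summable_rpow.mpr (by linarith)
  refine Summable.tsum_le_tsum (fun p => ?_) ?_ ?_
  · by_cases hp : ¬ (p : ℕ) ∣ D * D₀ * m ∧ ∃ P ∈ primesAbove M p, r (frobOf P) ∈ B
    · rw [if_pos hp]
      obtain ⟨hpD, P, hP, hPB⟩ := hp
      have hP' := (mem_primesAbove M p P).mp hP
      haveI := hP'.1
      have h3 : T p := by
        refine hT p p.2 (fun h => hpD ((h.mul_left D).mul_right m)) (P.under (𝓞 L))
          inferInstance ?_ _ hPB (isArithFrobAt_restrict L p.2 hP'.2 (isArithFrobAt_frobOf M hP))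
        rw [Ideal.mem_comap]; simpa using hP'.2
      rw [if_pos h3]
    · rw [if_neg hp]
      split_ifs <;> positivity
  · refine Summable.of_nonneg_of_le (fun p => ?_) (fun p => ?_) hsum
    · split_ifs <;> positivity
    · split_ifs
      · exact le_rfl
      · positivity
  · refine Summable.of_nonneg_of_le (fun p => ?_) (fun p => ?_) hsum
    · split_ifs <;> positivity
    · split_ifs
      · exact le_rfl
      · positivity

end Fermat.Agent.ChebFull
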