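import Mathlib
import Fermat.Agent.ChebFull.Main
import Fermat.Agent.Cheb.Bridge

/-!
# Consequences of Chebotarev's theorem
-/

set_option linter.unusedSectionVars false
set_option linter.unusedVariables false

open NumberField Ideal Filter Topology Pointwise

open scoped Classical nonZeroDivisors

namespace Fermat.Agent.ChebFull

open IdealL Cheb

local notation "Qbar" => AlgebraicClosure ℚ
local notation "Γℚ" => (AlgebraicClosure ℚ ≃ₐ[ℚ] AlgebraicClosure ℚ)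

/-- a set of primes of positive lower density is infinite. -/
theorem infinite_of_lower {T : ℕ → Prop} {δ C : ℝ} (hδ : 0 < δ)
    (h : ∀ s : ℝ, 1 < s → s ≤ 2 → δ * Real.log (1 / (s - 1)) - C ≤
      ∑' p : Nat.Primes, if T p then ((p : ℕ) : ℝ) ^ (-s) else 0) (N : ℕ) :
    ∃ p : ℕ, p.Prime ∧ N < p ∧ T p := by
  by_contra hcon
  push Not at hcon
  have hfin : {p : Nat.Primes | (p : ℕ) ≤ N}.Finite :=
    (Set.finite_Iic N).preimage (fun a _ b _ hab => Subtype.ext hab)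
  set X : Finset Nat.Primes := hfin.toFinset with hX
  have hmem : ∀ p : Nat.Primes, p ∉ X → ¬ T p := by
    intro p hp hT
    have hp' : ¬ (p : ℕ) ≤ N := fun h => hp ((Set.Finite.mem_toFinset hfin).mpr h)
    exact hcon p p.2 (by omega) hT
  have h1 : BddNear fun s => ∑' p : Nat.Primes,
      (if T p then (1 : ℝ) else 0) * ((p : ℕ) : ℝ) ^ (-s) :=
    bddNear_of_finite (fun p : Nat.Primes => if T p then (1 : ℝ) else 0) X
      fun p hp => if_neg (hmem p hp)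
  obtain ⟨C', hC'⟩ := h1
  apply not_bddNear_log
  refine ⟨(C' + C) / δ, fun s hs1 hs2 => ?_⟩
  have hlog : 0 ≤ Real.log (1 / (s - 1)) := by
    apply Real.log_nonneg
    rw [le_div_iff₀ (by linarith)]
    linarith
  rw [abs_of_nonneg hlog, le_div_iff₀ hδ]
  have h2 := hC' s hs1 hs2
  have h3 := h s hs1 hs2
  have h4 : ∑' p : Nat.Primes, (if T p then (1 : ℝ) else 0) * ((p : ℕ) : ℝ) ^ (-s) =
      ∑' p : Nat.Primes, if T p then ((p : ℕ) : ℝ) ^ (-s) else 0 :=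
    tsum_congr fun p => by split_ifs <;> simp
  beta_reduce at h2
  rw [h4, abs_le] at h2
  linarith [h2.2]

/-- **Chebotarev's theorem**, existence: every `σ ∈ Gal(L/ℚ)` is the Frobenius of a prime of `L`
above an arbitrarily large unramified prime. -/
theorem exists_prime_frob_eq (L : Type*) [Field L] [NumberField L] [IsGalois ℚ L]
    (σ : Gal(L/ℚ)) (N : ℕ) :
    ∃ p : ℕ, p.Prime ∧ N < p ∧
      (∀ P : Ideal (𝓞 L), P.IsPrime → (p : 𝓞 L) ∈ P → P.inertia Gal(L/ℚ) = ⊥) ∧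
      ∃ P : Ideal (𝓞 L), P.IsPrime ∧ (p : 𝓞 L) ∈ P ∧ IsArithFrobAt ℤ σ P := by
  obtain ⟨D, hD, hgood⟩ := exists_good L
  have hn : (0 : ℝ) < Fintype.card Gal(L/ℚ) := by exact_mod_cast Fintype.card_pos
  obtain ⟨C, hC⟩ := chebotarev_lower L {σ}
    (fun p => ¬ p ∣ D ∧ ∃ P : Ideal (𝓞 L), P.IsPrime ∧ (p : 𝓞 L) ∈ P ∧ IsArithFrobAt ℤ σ P)
    D hD (fun p hp hpD P hP hpP F hF hFP => ⟨hpD, P, hP, hpP, by
      rw [Finset.mem_singleton] at hF; rwa [hF] at hFP⟩)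
    (ε := 1 / (2 * Fintype.card Gal(L/ℚ))) (by positivity)
  obtain ⟨p, hp, hN, hpD, hex⟩ := infinite_of_lower
    (T := fun p => ¬ p ∣ D ∧ ∃ P : Ideal (𝓞 L), P.IsPrime ∧ (p : 𝓞 L) ∈ P ∧
      IsArithFrobAt ℤ σ P)
    (δ := 1 / (2 * Fintype.card Gal(L/ℚ))) (C := C) (by positivity) (fun s hs1 hs2 => by
      refine le_trans (le_of_eq ?_) (hC s hs1 hs2)
      rw [Finset.card_singleton]
      congr 2
      field_simp
      push_cast
      ring) N
  exact ⟨p, hp, hN, hgood p hp hpD, hex⟩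

/-- sum over all primes -/
theorem exists_sum_primes_le : ∃ C : ℝ, ∀ s : ℝ, 1 < s → s ≤ 2 →
    ∑' p : Nat.Primes, ((p : ℕ) : ℝ) ^ (-s) ≤ Real.log (1 / (s - 1)) + C := by
  obtain ⟨C, hC⟩ := exists_bound_degreeOne ℚ
  refine ⟨C, fun s hs1 hs2 => ?_⟩
  have h1 : |∑' p : Nat.Primes, (idealCount (𝓞 ℚ) p : ℝ) * ((p : ℕ) : ℝ) ^ (-s) -
      Real.log (1 / (s - 1))| ≤ C := hC s hs1 hs2
  rw [abs_le] at h1
  have h2 : ∑' p : Nat.Primes, ((p : ℕ) : ℝ) ^ (-s) ≤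
      ∑' p : Nat.Primes, (idealCount (𝓞 ℚ) p : ℝ) * ((p : ℕ) : ℝ) ^ (-s) := by
    refine Summable.tsum_le_tsum (fun p => ?_) (Nat.Primes.summable_rpow.mpr (by linarith))
      (summable_idealCount_primes ℚ hs1)
    have hp0 : 0 ≤ ((p : ℕ) : ℝ) ^ (-s) := Real.rpow_nonneg (Nat.cast_nonneg _) _
    have h3 : 0 < idealCount (𝓞 ℚ) p := by
      unfold idealCount
      have hfin : Finite {I : Ideal (𝓞 ℚ) // absNorm I = (p : ℕ)} :=
        Ideal.finite_setOfPred_absNorm_eq _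
      haveI : Nonempty {I : Ideal (𝓞 ℚ) // absNorm I = (p : ℕ)} := by
        refine ⟨⟨span {((p : ℕ) : 𝓞 ℚ)}, ?_⟩⟩
        rw [absNorm_span_natCast, NumberField.RingOfIntegers.rank, Module.finrank_self, pow_one]
      exact Nat.card_pos
    have h4 : (1 : ℝ) ≤ idealCount (𝓞 ℚ) p := by exact_mod_cast h3
    nlinarith
  linarith [h1.2]

theorem summable_ind (T : Nat.Primes → Prop) {s : ℝ} (hs : 1 < s) :
    Summable fun p : Nat.Primes => if T p then ((p : ℕ) : ℝ) ^ (-s) else 0 := by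
  refine Summable.of_nonneg_of_le (fun p => ?_) (fun p => ?_)
    (Nat.Primes.summable_rpow.mpr (by linarith : -s < -1))
  · split_ifs <;> positivity
  · split_ifs
    · exact le_rfl
    · positivity

/-- **Chebotarev's density theorem**, upper bound. -/
theorem chebotarev_upper (L : Type*) [Field L] [NumberField L] [IsGalois ℚ L]
    (B : Finset Gal(L/ℚ)) (T : ℕ → Prop) (D₀ : ℕ) (hD₀ : D₀ ≠ 0)
    (hT : ∀ p : ℕ, p.Prime → ¬ p ∣ D₀ → T p → ∀ P : Ideal (𝓞 L), P.IsPrime →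
      (p : 𝓞 L) ∈ P → ∀ F : Gal(L/ℚ), IsArithFrobAt ℤ F P → F ∈ B) {ε : ℝ} (hε : 0 < ε) :
    ∃ C : ℝ, ∀ s : ℝ, 1 < s → s ≤ 2 →
      ∑' p : Nat.Primes, (if T p then ((p : ℕ) : ℝ) ^ (-s) else 0) ≤
      ((B.card : ℝ) / Fintype.card Gal(L/ℚ) + ε) * Real.log (1 / (s - 1)) + C := by
  obtain ⟨T', hT'⟩ : ∃ T' : ℕ → Prop, ∀ p, T' p ↔ ¬ T p := ⟨fun p => ¬ T p, fun p => Iff.rfl⟩
  obtain ⟨C, hC⟩ := chebotarev_lower L Bᶜ T' D₀ hD₀
    (fun p hp hpD P hP hpP F hF hFP => (hT' p).mpr fun hTp =>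
      (Finset.mem_compl.mp hF) (hT p hp hpD hTp P hP hpP F hFP)) hε
  obtain ⟨C', hC'⟩ := exists_sum_primes_le
  refine ⟨C + C', fun s hs1 hs2 => ?_⟩
  have h1 := hC s hs1 hs2
  have h2 := hC' s hs1 hs2
  have h3 : ∑' p : Nat.Primes, (if T p then ((p : ℕ) : ℝ) ^ (-s) else 0) +
      ∑' p : Nat.Primes, (if T' p then ((p : ℕ) : ℝ) ^ (-s) else 0) =
      ∑' p : Nat.Primes, ((p : ℕ) : ℝ) ^ (-s) := by
    refine Eq.trans ((summable_ind (fun p : Nat.Primes => T p) hs1).tsum_add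
      (summable_ind (fun p : Nat.Primes => T' p) hs1)).symm ?_
    refine tsum_congr fun p => ?_
    by_cases h : T p
    · rw [if_pos h, if_neg (fun h' : T' p => (hT' p).mp h' h), add_zero]
    · rw [if_neg h, if_pos ((hT' p).mpr h), zero_add]
  have hn : (0 : ℝ) < Fintype.card Gal(L/ℚ) := by exact_mod_cast Fintype.card_pos
  have h4 : ((Bᶜ : Finset Gal(L/ℚ)).card : ℝ) / Fintype.card Gal(L/ℚ) =
      1 - (B.card : ℝ) / Fintype.card Gal(L/ℚ) := by
    rw [Finset.card_compl, Nat.cast_sub (Finset.card_le_univ B)]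
    field_simp
  rw [h4] at h1
  have h5 : (1 - (B.card : ℝ) / Fintype.card Gal(L/ℚ) - ε) * Real.log (1 / (s - 1)) =
      Real.log (1 / (s - 1)) - ((B.card : ℝ) / Fintype.card Gal(L/ℚ) + ε) *
        Real.log (1 / (s - 1)) := by ring
  rw [h5] at h1
  linarith

section Places

variable (L : IntermediateField ℚ Qbar) [IsGalois ℚ L] [NumberField L]

open Fermat.Agent.Frob

theorem exists_frobenius_galois_eq (σ : Γℚ) (N : ℕ) :
    ∃ ℓ : ℕ, ℓ.Prime ∧ N < ℓ ∧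
      (∀ A : ValuationSubring Qbar, A.LiesOverPrime ℓ →
        ∀ τ ∈ A.inertiaSubgroupIn ℚ, res L τ = 1) ∧
      ∃ A : ValuationSubring Qbar, A.LiesOverPrime ℓ ∧
        ∃ φ : Γℚ, A.IsFrobeniusAt φ ℓ ∧ res L φ = res L σ := by
  obtain ⟨ℓ, hℓ, hN, hI, P, hP, hPℓ, hF⟩ := exists_prime_frob_eq L (res L σ) N
  haveI := Fact.mk hℓ
  refine ⟨ℓ, hℓ, hN, fun A hA τ hτ => ?_, ?_⟩
  · have h1 := res_mem_inertia L hτ
    rw [hI _ inferInstance (natCast_mem_below L hA), Subgroup.mem_bot] at h1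
    exact h1
  · obtain ⟨A, hA, rfl⟩ := exists_place_above L hℓ P hPℓ
    obtain ⟨φ, hφ⟩ := exists_isFrobeniusAt A hℓ hA
    refine ⟨A, hA, φ, hφ, ?_⟩
    have h1 := IsArithFrobAt.mul_inv_mem_inertia (isArithFrobAt_res L hℓ hA hφ) hF
    rw [hI _ hP hPℓ, Subgroup.mem_bot, mul_inv_eq_one] at h1
    exact h1

end Places

open Fermat.Agent.Frob in
/-- **Chebotarev** for places of `Qbar`. For `F/ℚ` finite, `σ ∈ Gal(Qbar/ℚ)`, `S` a
finite set: there are a prime `ℓ ∉ S`, such that inertia at every place above `ℓ` fixes `F`, and a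
place `A` above `ℓ` and a Frobenius `φ` at `A` with `φ = σ` on `F`. -/
theorem exists_frobenius_eq (F : IntermediateField ℚ Qbar) [FiniteDimensional ℚ F] (σ : Γℚ)
    (S : Finset ℕ) :
    ∃ ℓ : ℕ, ℓ.Prime ∧ ℓ ∉ S ∧
      (∀ A : ValuationSubring Qbar, A.LiesOverPrime ℓ →
        ∀ τ ∈ A.inertiaSubgroupIn ℚ, ∀ x ∈ F, τ x = x) ∧
      ∃ A : ValuationSubring Qbar, A.LiesOverPrime ℓ ∧
        ∃ φ : Γℚ, A.IsFrobeniusAt φ ℓ ∧ ∀ x ∈ F, φ x = σ x := by
  let L : IntermediateField ℚ Qbar := IntermediateField.normalClosure ℚ F Qbar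
  haveI : FiniteDimensional ℚ L := normalClosure.is_finiteDimensional ℚ F Qbar
  haveI : Normal ℚ L := normalClosure.normal ℚ F Qbar
  haveI : IsGalois ℚ L := {}
  haveI : NumberField L := { to_finiteDimensional := inferInstance }
  have hFL : F ≤ L := F.le_normalClosure
  obtain ⟨ℓ, hℓ, hN, hI, A, hA, φ, hφ, hz⟩ := exists_frobenius_galois_eq L σ (S.sup id)
  have key : ∀ τ τ' : Γℚ, res L τ = res L τ' → ∀ x ∈ F, τ x = τ' x := by
    intro τ τ' h x hx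
    have h1 := coe_res_apply L τ ⟨x, hFL hx⟩
    have h2 := coe_res_apply L τ' ⟨x, hFL hx⟩
    rw [← h1, ← h2, h]
  refine ⟨ℓ, hℓ, fun hS => ?_, fun A' hA' τ hτ x hx => ?_, A, hA, φ, hφ, key φ σ hz⟩
  · have : ℓ ≤ S.sup id := Finset.le_sup (f := id) hS
    omega
  · have h1 := hI A' hA' τ hτ
    exact key τ 1 (by rw [h1, map_one]) x hx

/-- **Chebotarev** for homomorphisms factoring through a finite level. -/
theorem exists_frobenius_eq_of_factors {M : Type*} [Monoid M] (ρ : Γℚ →* M)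
    (h : ∃ F : IntermediateField ℚ Qbar, FiniteDimensional ℚ F ∧
      ∀ σ : Γℚ, (∀ x ∈ F, σ x = x) → ρ σ = 1) (σ : Γℚ) (S : Finset ℕ) :
    ∃ ℓ : ℕ, ℓ.Prime ∧ ℓ ∉ S ∧
      (∀ A : ValuationSubring Qbar, A.LiesOverPrime ℓ →
        ∀ τ ∈ A.inertiaSubgroupIn ℚ, ρ τ = 1) ∧
      ∃ A : ValuationSubring Qbar, A.LiesOverPrime ℓ ∧
        ∃ φ : Γℚ, A.IsFrobeniusAt φ ℓ ∧ ρ φ = ρ σ := by
  obtain ⟨F, hF, h⟩ := h
  haveI := hF
  obtain ⟨ℓ, hℓ, hN, hI, A, hA, φ, hφ, hk⟩ := exists_frobenius_eq F σ S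
  have key : ∀ τ τ' : Γℚ, (∀ x ∈ F, τ x = τ' x) → ρ τ = ρ τ' := by
    intro τ τ' h'
    have h1 : ρ (τ'⁻¹ * τ) = 1 := h _ fun x hx => by
      change τ'⁻¹ (τ x) = x
      rw [h' x hx]
      exact inv_smul_smul τ' x
    have h2 : τ = τ' * (τ'⁻¹ * τ) := by group
    rw [h2, map_mul, h1, mul_one]
  exact ⟨ℓ, hℓ, hN, fun A' hA' τ hτ => by rw [key τ 1 (hI A' hA' τ hτ), map_one], A, hA, φ, hφ,
    key φ σ hk⟩

open Fermat.Agent.Frob in
/-- **Chebotarev density**, lower bound, for a surjection of the absolute Galois group to a finite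
group. -/
theorem chebotarev_lower_places {G : Type*} [Group G] [Fintype G] (ρ : Γℚ →* G)
    (hρ : Function.Surjective ρ)
    (h : ∃ F : IntermediateField ℚ Qbar, FiniteDimensional ℚ F ∧
      ∀ σ : Γℚ, (∀ x ∈ F, σ x = x) → ρ σ = 1)
    (B : Finset G) (T : ℕ → Prop) (D₀ : ℕ) (hD₀ : D₀ ≠ 0)
    (hT : ∀ p : ℕ, p.Prime → ¬ p ∣ D₀ → ∀ A : ValuationSubring Qbar, A.LiesOverPrime p →
      (∀ τ ∈ A.inertiaSubgroupIn ℚ, ρ τ = 1) →
      ∀ φ : Γℚ, A.IsFrobeniusAt φ p → ρ φ ∈ B → T p) {ε : ℝ} (hε : 0 < ε) :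
    ∃ C : ℝ, ∀ s : ℝ, 1 < s → s ≤ 2 →
      ((B.card : ℝ) / Fintype.card G - ε) * Real.log (1 / (s - 1)) - C ≤
      ∑' p : Nat.Primes, if T p then ((p : ℕ) : ℝ) ^ (-s) else 0 := by
  obtain ⟨F, hF, h⟩ := h
  haveI := hF
  let L : IntermediateField ℚ Qbar := IntermediateField.normalClosure ℚ F Qbar
  haveI : FiniteDimensional ℚ L := normalClosure.is_finiteDimensional ℚ F Qbar
  haveI : Normal ℚ L := normalClosure.normal ℚ F Qbar
  haveI : IsGalois ℚ L := {}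
  haveI : NumberField L := { to_finiteDimensional := inferInstance }
  have hFL : F ≤ L := F.le_normalClosure
  have key : ∀ τ : Γℚ, res L τ = 1 → ρ τ = 1 := by
    intro τ hτ
    refine h τ fun x hx => ?_
    have h1 := coe_res_apply L τ ⟨x, hFL hx⟩
    rw [hτ] at h1
    exact h1.symm
  -- the factored homomorphism
  let r : Gal(L/ℚ) →* G := MonoidHom.liftOfSurjective (res L) (res_surjective L)
    ⟨ρ, fun τ hτ => MonoidHom.mem_ker.mpr (key τ (MonoidHom.mem_ker.mp hτ))⟩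
  have hr : ∀ τ, r (res L τ) = ρ τ := fun τ =>
    MonoidHom.liftOfRightInverse_comp_apply _ _ _ _ τ
  have hrs : Function.Surjective r := fun g => by
    obtain ⟨τ, rfl⟩ := hρ g
    exact ⟨res L τ, hr τ⟩
  obtain ⟨D, hD, hgood⟩ := exists_good L
  obtain ⟨C, hC⟩ := chebotarev_lower L (Finset.univ.filter fun g => r g ∈ B) T (D * D₀)
    (mul_ne_zero hD hD₀) (fun p hp hpD P hP hpP g hg hgP => by
      haveI := Fact.mk hp
      obtain ⟨A, hA, rfl⟩ := exists_place_above L hp P hpP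
      obtain ⟨φ, hφ⟩ := exists_isFrobeniusAt A hp hA
      have hI := hgood p hp (fun h => hpD (h.mul_right D₀)) _ hP hpP
      refine hT p hp (fun h => hpD (h.mul_left D)) A hA (fun τ hτ => ?_) φ hφ ?_
      · have h1 := res_mem_inertia L hτ
        rw [hI, Subgroup.mem_bot] at h1
        exact key τ h1
      · have h1 := IsArithFrobAt.mul_inv_mem_inertia (isArithFrobAt_res L hp hA hφ) hgP
        rw [hI, Subgroup.mem_bot, mul_inv_eq_one] at h1
        rw [← hr, h1]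
        exact (Finset.mem_filter.mp hg).2) hε
  refine ⟨C, fun s hs1 hs2 => ?_⟩
  have h1 := hC s hs1 hs2
  have h2 := card_preimage_mul r hrs B
  have hG : (0 : ℝ) < Fintype.card G := by exact_mod_cast Fintype.card_pos
  have hGal : (0 : ℝ) < Fintype.card Gal(L/ℚ) := by exact_mod_cast Fintype.card_pos
  have h3 : ((Finset.univ.filter fun g : Gal(L/ℚ) => r g ∈ B).card : ℝ) /
      Fintype.card Gal(L/ℚ) = (B.card : ℝ) / Fintype.card G := by
    rw [div_eq_div_iff hGal.ne' hG.ne']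
    exact_mod_cast h2
  rw [h3] at h1
  exact h1

end Fermat.Agent.ChebFull
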